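import Fermat.Agent.HooleyRoots.Main

/-!
# The roots to moduli divisible by `d`

If `d ∣ r ^ 2 + s ^ 2` with `(r, s) = 1` then `r` is prime to `d` and `s ≡ t r (mod d)` for exactly
one root `t` modulo `d`; writing `s = t r + d i` turns each class into an incomplete Kloosterman
sum in `i`. So the bound of Hooley's theorem holds uniformly for the moduli divisible by `d`.
-/

set_option autoImplicit false
set_option linter.style.haveILetI false

noncomputable section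

namespace FA.HooleyPrime

open Finset
open FA.HooleyRoots
open FA.ThreePrimes (eAdd eAdd_zero norm_eAdd)
open scoped Real

/-- The roots of `ν ^ 2 + 1` modulo `k`. -/
def rootSet (k : ℕ) : Finset ℕ := (range k).filter fun v => k ∣ v ^ 2 + 1

/-- `∑ e (h ν / k)` over the roots. -/
def expRoots (h : ℤ) (k : ℕ) : ℂ := ∑ v ∈ rootSet k, eAdd ((h : ℝ) * (v : ℝ) / (k : ℝ))

/-- The term of `(r, s)`. -/
def term (h : ℤ) (r : ℕ) (s : ℤ) : ℂ :=
  eAdd ((h : ℝ) * ((toRoot ((r : ℤ), s)).2 : ℝ) / ((toRoot ((r : ℤ), s)).1 : ℝ))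

theorem norm_term_sub_le {r : ℕ} [NeZero r] (h s : ℤ) :
    ‖(if Int.gcd r s = 1 then term h r s else 0) - invExp r (-h) s‖ ≤
      π * |(h : ℝ)| / (r : ℝ) ^ 2 := by
  split_ifs with hg
  · rw [term, eAdd_toRoot hg, ← sub_one_mul, norm_mul, ← eAdd_zero]
    have hinv : ‖invExp r (-h) s‖ = 1 := by
      rw [invExp, if_pos (by rwa [Int.gcd_comm]), ZMod.stdAddChar_apply]
      exact Circle.norm_coe _
    rw [hinv, mul_one]
    refine (Equidist.norm_eAdd_sub_le _ _).trans ?_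
    have hr : (0 : ℝ) < r := Nat.cast_pos.2 (NeZero.pos r)
    rw [sub_zero, abs_div, abs_mul, abs_of_nonneg (by positivity : (0 : ℝ) ≤
      (r : ℝ) * ((r : ℝ) ^ 2 + (s : ℝ) ^ 2)), mul_div_assoc', div_le_div_iff₀ (by positivity)
      (by positivity)]
    nlinarith [mul_le_mul_of_nonneg_left (mul_le_mul_of_nonneg_right (show 2 * |(s : ℝ)| * r ≤
        (r : ℝ) ^ 2 + (s : ℝ) ^ 2 by nlinarith [sq_nonneg (|(s : ℝ)| - r), sq_abs (s : ℝ)])
      hr.le) (show 0 ≤ π * |(h : ℝ)| by positivity)]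
  · rw [invExp, if_neg (by rwa [Int.gcd_comm]), sub_zero, norm_zero]
    positivity

/-- `invExp` on `s = t r + d i`. -/
theorem invExp_progression {r : ℕ} [NeZero r] {d : ℤ} {u w : ℤ} (huw : u * d + w * r = 1)
    (k t i : ℤ) : invExp r k (t * r + d * i) = invExp r (k * u) i := by
  have hs : ((t * r + d * i : ℤ) : ZMod r) = (d : ZMod r) * i := by simp
  have hu : (u : ZMod r) * d = 1 := by
    have := congrArg (fun z : ℤ => (z : ZMod r)) huw
    simpa using this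
  have hgcd : Int.gcd (t * r + d * i) r = 1 ↔ Int.gcd i r = 1 := by
    rw [← Int.isCoprime_iff_gcd_eq_one, ← Int.isCoprime_iff_gcd_eq_one, add_comm,
      IsCoprime.add_mul_right_left_iff]
    exact ⟨fun h => h.of_mul_left_right,
      fun h => (show IsCoprime d (r : ℤ) from ⟨u, w, huw⟩).mul_left h⟩
  rw [invExp, invExp]
  simp only [hgcd]
  split_ifs with hi
  · have hunit : IsUnit (i : ZMod r) := by
      rw [ZMod.coe_int_isUnit_iff_isCoprime, isCoprime_comm, Int.isCoprime_iff_gcd_eq_one]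
      exact hi
    rw [hs, ZMod.inv_eq_of_mul_eq_one _ _ ((u : ZMod r) * (i : ZMod r)⁻¹) ?_, Int.cast_mul,
      mul_assoc]
    rw [mul_mul_mul_comm, mul_comm (d : ZMod r) u, hu, one_mul, ZMod.mul_inv_of_unit _ hunit]
  · rfl

/-- One class modulo `d`. -/
theorem norm_class_le {r : ℕ} [NeZero r] {d : ℕ} (hd : 0 < d) (hco : IsCoprime (d : ℤ) (r : ℤ))
    {h : ℤ} (hh : h ≠ 0) (t : ℤ) (A B : ℤ) (hAB : B + 1 - A ≤ 2 * r) :
    ‖∑ s ∈ (Icc A B).filter (fun s => (d : ℤ) ∣ s - t * r), invExp r (-h) s‖ ≤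
      weight r * Real.sqrt |(h : ℝ)| * (4 + Real.log r) := by
  obtain ⟨u, w, huw⟩ := hco
  obtain ⟨a, ha⟩ : ∃ a, a = (A - t * r + ((d : ℤ) - 1)) / d := ⟨_, rfl⟩
  obtain ⟨b, hb⟩ : ∃ b, b = (B - t * r) / d := ⟨_, rfl⟩
  have hdZ : (0 : ℤ) < d := Int.natCast_pos.2 hd
  have hmem : ∀ i : ℤ, i ∈ Icc a b ↔ t * r + d * i ∈ Icc A B := fun i => by
    have h1 : a ≤ i ↔ A ≤ t * r + d * i := by
      rw [← not_lt, ← not_lt, ha, Int.lt_iff_add_one_le, Int.le_ediv_iff_mul_le hdZ]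
      constructor <;> intro hn hc <;> apply hn <;> nlinarith
    have h2 : i ≤ b ↔ t * r + d * i ≤ B := by
      rw [hb, Int.le_ediv_iff_mul_le hdZ]
      constructor <;> intro hn <;> nlinarith
    simp only [mem_Icc, h1, h2]
  rw [show (Icc A B).filter (fun s => (d : ℤ) ∣ s - t * r) =
      (Icc a b).image (fun i => t * r + d * i) by
    ext s
    simp only [mem_filter, mem_image, hmem]
    constructor
    · rintro ⟨hs, c, hc⟩
      exact ⟨c, by rwa [← hc, add_sub_cancel], by rw [← hc, add_sub_cancel]⟩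
    · rintro ⟨i, hi, rfl⟩
      exact ⟨hi, i, by ring⟩,
    sum_image fun x _ y _ e => mul_left_cancel₀ hdZ.ne' (add_left_cancel e)]
  simp only [invExp_progression huw]
  obtain ⟨L, hL⟩ : ∃ L, L = (b + 1 - a).toNat := ⟨_, rfl⟩
  rw [Int.Icc_eq_finset_map, sum_map, ← hL]
  simp only [Function.Embedding.trans_apply, Nat.castEmbedding_apply, addLeftEmbedding_apply]
  have hr : (0 : ℝ) < r := Nat.cast_pos.2 (NeZero.pos r)
  have hL3 : L ≤ 3 * r := by
    rcases lt_or_ge b a with hlt | hle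
    · omega
    have h1 := (hmem a).1 (mem_Icc.2 ⟨le_rfl, hle⟩)
    have h2 := (hmem b).1 (mem_Icc.2 ⟨hle, le_rfl⟩)
    rw [mem_Icc] at h1 h2
    have h3 : b - a ≤ (d : ℤ) * (b - a) := le_mul_of_one_le_left (by omega) (by omega)
    have : 0 < r := NeZero.pos r
    rw [mul_sub] at h3
    omega
  refine (norm_sum_invExp_le r _ a L).trans ?_
  refine mul_le_mul (mul_le_mul_of_nonneg_left (Real.sqrt_le_sqrt ?_) (weight_nonneg r)) ?_
    (by have := Real.log_natCast_nonneg r; positivity)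
    (mul_nonneg (weight_nonneg r) (Real.sqrt_nonneg _))
  · rw [show |(h : ℝ)| = (h.natAbs : ℝ) by rw [Nat.cast_natAbs, Int.cast_abs]]
    refine Nat.cast_le.2 ?_
    have hu : IsCoprime u (r : ℤ) := ⟨d, w, by linear_combination huw⟩
    rw [Int.gcd, Int.natAbs_mul, Int.natAbs_natCast, Int.natAbs_neg, mul_comm,
      Nat.Coprime.gcd_mul_left_cancel _
        (show u.natAbs.Coprime r by simpa using Int.isCoprime_iff_nat_coprime.1 hu)]
    exact Nat.le_of_dvd (Int.natAbs_pos.2 hh) (Nat.gcd_dvd_left _ _)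
  · have : (L : ℝ) / r ≤ 3 := (div_le_iff₀ hr).2 (by exact_mod_cast hL3)
    linarith

theorem dvd_natCast_mod {d : ℕ} (z : ℤ) :
    (d : ℤ) ∣ z - (((z : ZMod d)).val : ℤ) ∨ d = 0 := by
  rcases Nat.eq_zero_or_pos d with hd | hd
  · exact Or.inr hd
  haveI : NeZero d := ⟨hd.ne'⟩
  refine Or.inl ((ZMod.intCast_zmod_eq_zero_iff_dvd _ _).1 ?_)
  rw [Int.cast_sub, Int.cast_natCast, ZMod.natCast_zmod_val, sub_self]

/-- **The bound at one `r`, modulo `d`.** -/
theorem norm_row_le_dvd {r : ℕ} [NeZero r] {d : ℕ} (hd : 0 < d) {h : ℤ} (hh : h ≠ 0) (A B : ℤ)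
    (hAB : B + 1 - A ≤ 2 * r) :
    ‖∑ s ∈ (Icc A B).filter (fun s => (d : ℤ) ∣ (r : ℤ) ^ 2 + s ^ 2),
      (if Int.gcd r s = 1 then term h r s else 0)‖ ≤
      ((d : ℝ) + 1) * (weight r * Real.sqrt |(h : ℝ)| * (4 + Real.log r) +
        2 * π * |(h : ℝ)| * (1 / r)) := by
  haveI : NeZero d := ⟨hd.ne'⟩
  have hr : (0 : ℝ) < r := Nat.cast_pos.2 (NeZero.pos r)
  obtain ⟨E, hE⟩ : ∃ E : ℝ, E = π * |(h : ℝ)| / (r : ℝ) ^ 2 := ⟨_, rfl⟩
  obtain ⟨S, hS⟩ : ∃ S, S = (Icc A B).filter (fun s => (d : ℤ) ∣ (r : ℤ) ^ 2 + s ^ 2) :=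
    ⟨_, rfl⟩
  obtain ⟨W, hW⟩ : ∃ W, W = weight r * Real.sqrt |(h : ℝ)| * (4 + Real.log r) := ⟨_, rfl⟩
  have hW0 : 0 ≤ W := by
    rw [hW]
    have := Real.log_natCast_nonneg r
    exact mul_nonneg (mul_nonneg (weight_nonneg r) (Real.sqrt_nonneg _)) (by linarith)
  have hmain : ‖∑ s ∈ S, invExp r (-h) s‖ ≤ (d : ℝ) * W := by
    by_cases hco : IsCoprime (d : ℤ) (r : ℤ)
    · obtain ⟨u, w, huw⟩ := hco
      have hu : (r : ZMod d) * (w : ZMod d) = 1 := by
        have := congrArg (fun z : ℤ => (z : ZMod d)) huw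
        rw [mul_comm]
        simpa using this
      have huniq : ∀ t : ℕ, t < d → ∀ s : ℤ,
          ((d : ℤ) ∣ s - t * r ↔ (s : ZMod d) * (w : ZMod d) = t) := fun t _ s => by
        rw [← ZMod.intCast_zmod_eq_zero_iff_dvd, Int.cast_sub, Int.cast_mul, Int.cast_natCast,
          Int.cast_natCast, sub_eq_zero]
        constructor
        · intro e
          rw [e, mul_assoc, hu, mul_one]
        · intro e
          rw [← e, mul_assoc, mul_comm (w : ZMod d), hu, mul_one]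
      obtain ⟨T, hT⟩ : ∃ T, T = (range d).filter (fun t => d ∣ t ^ 2 + 1) := ⟨_, rfl⟩
      have hto : ∀ s ∈ S, ((s : ZMod d) * (w : ZMod d)).val ∈ T := fun s hs => by
        rw [hS, mem_filter, ← ZMod.intCast_zmod_eq_zero_iff_dvd] at hs
        rw [hT, mem_filter, mem_range]
        refine ⟨ZMod.val_lt _, ?_⟩
        rw [← ZMod.natCast_eq_zero_iff]
        have h2 := hs.2
        push_cast at h2 ⊢
        rw [ZMod.natCast_zmod_val]
        linear_combination (w : ZMod d) ^ 2 * h2 - ((r : ZMod d) * w + 1) * hu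
      rw [← sum_fiberwise_of_maps_to hto]
      refine (norm_sum_le_of_le T fun t ht => ?_).trans (le_trans (le_of_eq (sum_const W)) ?_)
      · rw [hT, mem_filter, mem_range] at ht
        rw [hS, filter_filter, show (Icc A B).filter (fun s => (d : ℤ) ∣ (r : ℤ) ^ 2 + s ^ 2 ∧
            ((s : ZMod d) * (w : ZMod d)).val = t) =
          (Icc A B).filter (fun s => (d : ℤ) ∣ s - (t : ℤ) * r) from filter_congr fun s _ => by
            rw [huniq t ht.1 s]
            constructor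
            · rintro ⟨-, e⟩
              rw [← e, ZMod.natCast_zmod_val]
            · intro e
              refine ⟨?_, by rw [e, ZMod.val_natCast, Nat.mod_eq_of_lt ht.1]⟩
              have h1 := (huniq t ht.1 s).2 e
              rw [show (r : ℤ) ^ 2 + s ^ 2 = ((t : ℤ) ^ 2 + 1) * (r : ℤ) ^ 2 +
                (s - t * r) * (s + t * r) by ring]
              exact dvd_add (Dvd.dvd.mul_right (by exact_mod_cast ht.2) _) (h1.mul_right _)]
        exact hW ▸ norm_class_le hd ⟨u, w, huw⟩ hh t A B hAB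
      · rw [nsmul_eq_mul]
        refine mul_le_mul_of_nonneg_right (Nat.cast_le.2 ?_) hW0
        exact hT ▸ (card_filter_le _ _).trans_eq (card_range d)
    · rw [sum_eq_zero fun s hs => ?_, norm_zero]
      · positivity
      rw [invExp, if_neg fun hg => hco ?_]
      rw [hS, mem_filter] at hs
      obtain ⟨c, hc⟩ := hs.2
      obtain ⟨a, b, hab⟩ := (Int.isCoprime_iff_gcd_eq_one.2 hg).pow_left (m := 2)
      exact ⟨a * c, b - a * r, by linear_combination hab - a * hc⟩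
  have herr : ‖∑ s ∈ S, ((if Int.gcd r s = 1 then term h r s else 0) - invExp r (-h) s)‖ ≤
      2 * π * |(h : ℝ)| * (1 / r) := by
    refine (norm_sum_le_of_le S fun s _ => hE ▸ norm_term_sub_le h s).trans ?_
    rw [sum_const, nsmul_eq_mul, hE]
    refine (mul_le_mul_of_nonneg_right (show (#S : ℝ) ≤ 2 * r from ?_) (by positivity)).trans_eq
      (by field_simp)
    rw [hS]
    have h1 := card_filter_le (Icc A B) (fun s => (d : ℤ) ∣ (r : ℤ) ^ 2 + s ^ 2)
    rw [Int.card_Icc] at h1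
    exact_mod_cast h1.trans (show (B + 1 - A).toNat ≤ 2 * r by omega)
  rw [← hS]
  refine (norm_le_norm_sub_add _ (∑ s ∈ S, invExp r (-h) s)).trans ?_
  rw [← sum_sub_distrib, ← hW]
  have : 0 ≤ 2 * π * |(h : ℝ)| * (1 / r) := by positivity
  nlinarith [Nat.cast_nonneg (α := ℝ) d]

/-- The partial sums over the moduli divisible by `d`. -/
theorem sum_expRoots_eq (h : ℤ) (d N : ℕ) :
    ∑ k ∈ (Ioc 0 N).filter (fun k => d ∣ k), expRoots h k =
      ∑ x ∈ rootPairs N, if d ∣ x.1 then eAdd ((h : ℝ) * (x.2 : ℝ) / (x.1 : ℝ)) else 0 := by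
  rw [sum_filter]
  unfold expRoots
  simp only [ite_sum_zero]
  rw [sum_sigma' (Ioc 0 N)]
  refine sum_nbij' (fun x => (x.1, x.2)) (fun x => ⟨x.1, x.2⟩) ?_ ?_ (fun _ _ => rfl)
    (fun _ _ => rfl) fun _ _ => rfl
  · intro x hx
    simp only [mem_sigma, mem_Ioc, rootSet, mem_filter, mem_range] at hx
    exact mem_rootPairs.2 ⟨hx.1.2, hx.2⟩
  · intro x hx
    obtain ⟨h1, h2, h3⟩ := mem_rootPairs.1 hx
    simp only [mem_sigma, mem_Ioc, rootSet, mem_filter, mem_range]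
    exact ⟨⟨by omega, h1⟩, h2, h3⟩

/-- **Hooley's bound, uniformly in `d`.** -/
theorem exists_norm_sum_expRoots_le : ∃ C : ℝ, 0 < C ∧ ∀ (h : ℤ), h ≠ 0 → ∀ (d N : ℕ), 0 < d →
    ‖∑ k ∈ (Ioc 0 N).filter (fun k => d ∣ k), expRoots h k‖ ≤
      C * (d + 1) * |(h : ℝ)| * (N : ℝ) ^ (3 / 4 : ℝ) * (1 + Real.log N) ^ 7 := by
  obtain ⟨C, hC0, hC⟩ := exists_sum_weight_le
  refine ⟨4 * C + 2 * π, by positivity, fun h hh d N hd => ?_⟩
  rcases Nat.eq_zero_or_pos N with rfl | hN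
  · simp
  obtain ⟨L, hL⟩ : ∃ L, L = Nat.sqrt N := ⟨_, rfl⟩
  obtain ⟨F, hF⟩ : ∃ F : ℕ × ℕ → ℂ,
      F = fun x => if d ∣ x.1 then eAdd ((h : ℝ) * (x.2 : ℝ) / (x.1 : ℝ)) else 0 := ⟨_, rfl⟩
  have hrow : ∀ r ∈ Icc 1 L, ‖∑ s ∈ Icc (-(L : ℤ)) L,
      if -(r : ℤ) < s ∧ s ≤ r ∧ Int.gcd r s = 1 ∧ (r : ℤ) ^ 2 + s ^ 2 ≤ N then
        F (toRoot ((r : ℤ), s)) else 0‖ ≤ ((d : ℝ) + 1) *
      (weight r * Real.sqrt |(h : ℝ)| * (4 + Real.log r) + 2 * π * |(h : ℝ)| * (1 / r)) := by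
    intro r hr
    rw [mem_Icc] at hr
    haveI : NeZero r := ⟨by omega⟩
    obtain ⟨M, hM⟩ : ∃ M, M = Nat.sqrt (N - r ^ 2) := ⟨_, rfl⟩
    have hrN : r ^ 2 ≤ N := Nat.le_sqrt'.1 (hL ▸ hr.2)
    have hiff : ∀ s : ℤ, (r : ℤ) ^ 2 + s ^ 2 ≤ N ↔ -(M : ℤ) ≤ s ∧ s ≤ M := fun s => by
      have e : s.natAbs ≤ M ↔ (r : ℤ) ^ 2 + s ^ 2 ≤ N := by
        rw [hM, Nat.le_sqrt', Nat.le_sub_iff_add_le hrN, ← Int.natAbs_sq s, add_comm]
        norm_cast
      rw [← e]
      omega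
    have hset : (Icc (-(L : ℤ)) L).filter (fun s =>
        -(r : ℤ) < s ∧ s ≤ r ∧ Int.gcd r s = 1 ∧ (r : ℤ) ^ 2 + s ^ 2 ≤ N) =
        (Icc (max (-(r : ℤ) + 1) (-(M : ℤ))) (min (r : ℤ) M)).filter
          (fun s => Int.gcd r s = 1) := by
      ext s
      simp only [mem_filter, mem_Icc, hiff, max_le_iff, le_min_iff]
      have : M ≤ L := hM ▸ hL ▸ Nat.sqrt_le_sqrt (Nat.sub_le _ _)
      omega
    rw [← sum_filter, hset, sum_filter,
      sum_congr rfl (g := fun s => if (d : ℤ) ∣ (r : ℤ) ^ 2 + s ^ 2 then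
        (if Int.gcd r s = 1 then term h r s else 0) else 0) fun s _ => ?_, ← sum_filter]
    · exact norm_row_le_dvd hd hh _ _ (by omega)
    · have hiff' : d ∣ (toRoot ((r : ℤ), s)).1 ↔ (d : ℤ) ∣ (r : ℤ) ^ 2 + s ^ 2 := by
        rw [← Int.natCast_dvd_natCast,
          (toRoot_spec (y := ((r : ℤ), s)) (Int.natCast_pos.2 (NeZero.pos r))).1]
      simp only [hF, term, hiff']
      split_ifs <;> rfl
  have hsplit : ∑ k ∈ (Ioc 0 N).filter (fun k => d ∣ k), expRoots h k =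
      ∑ r ∈ Icc 1 L, ∑ s ∈ Icc (-(L : ℤ)) L,
      if -(r : ℤ) < s ∧ s ≤ r ∧ Int.gcd r s = 1 ∧ (r : ℤ) ^ 2 + s ^ 2 ≤ N then
        F (toRoot ((r : ℤ), s)) else 0 := by
    rw [sum_expRoots_eq, sum_rootPairs_eq, gaussPairs, sum_filter, sum_product, ← hL, hF]
    refine (sum_nbij' (fun r : ℕ => (r : ℤ)) Int.toNat ?_ ?_ (fun _ _ => rfl) ?_
      fun _ _ => rfl).symm
    · exact fun r hr => by simp only [mem_Icc] at hr ⊢; omega
    · exact fun r hr => by simp only [mem_Icc] at hr ⊢; omega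
    · exact fun r hr => Int.toNat_of_nonneg (by simp only [mem_Icc] at hr; omega)
  rw [hsplit]
  refine (norm_sum_le_of_le _ hrow).trans ?_
  rw [← mul_sum]
  have hlogN : 0 ≤ Real.log N := Real.log_natCast_nonneg N
  have hh1 : (1 : ℝ) ≤ |(h : ℝ)| := by exact_mod_cast Int.one_le_abs hh
  have hsh : Real.sqrt |(h : ℝ)| ≤ |(h : ℝ)| :=
    Real.sqrt_le_iff.2 ⟨by linarith, le_self_pow₀ hh1 two_ne_zero⟩
  have hLN : (L : ℝ) ≤ N := Nat.cast_le.2 (hL ▸ Nat.sqrt_le_self N)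
  have hN1 : (1 : ℝ) ≤ N := Nat.one_le_cast.2 hN
  have hL1 : (1 : ℝ) ≤ L := Nat.one_le_cast.2 (hL ▸ Nat.sqrt_pos.2 hN)
  have hlogL : Real.log L ≤ Real.log N := Real.log_le_log (by linarith) hLN
  obtain ⟨T, hT⟩ : ∃ T : ℝ, T = (N : ℝ) ^ (3 / 4 : ℝ) := ⟨_, rfl⟩
  have hLT : (L : ℝ) * Real.sqrt L ≤ T := by
    have hLs : (L : ℝ) ≤ Real.sqrt N := hL ▸ Real.nat_sqrt_le_real_sqrt
    refine (mul_le_mul hLs (Real.sqrt_le_sqrt hLs) (Real.sqrt_nonneg _)
      (Real.sqrt_nonneg _)).trans_eq ?_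
    rw [hT, Real.sqrt_eq_rpow, Real.sqrt_eq_rpow, ← Real.rpow_mul (by linarith),
      ← Real.rpow_add (by linarith)]
    norm_num
  have hsum : ∑ r ∈ Icc 1 L, weight r * Real.sqrt |(h : ℝ)| * (4 + Real.log r) ≤
      (∑ r ∈ Icc 1 L, weight r) * (|(h : ℝ)| * (4 * (1 + Real.log N))) := by
    rw [sum_mul]
    refine sum_le_sum fun r hr => ?_
    rw [mem_Icc] at hr
    rw [mul_assoc]
    refine mul_le_mul_of_nonneg_left (mul_le_mul hsh ?_ ?_ (by linarith)) (weight_nonneg r)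
    · have : Real.log r ≤ Real.log N := (Real.log_le_log (Nat.cast_pos.2 hr.1)
        (Nat.cast_le.2 hr.2)).trans hlogL
      linarith
    · linarith [Real.log_natCast_nonneg r]
  have hharm : ∑ r ∈ Icc 1 L, (1 : ℝ) / r ≤ T * (1 + Real.log N) ^ 7 := by
    have h1 := harmonic_le_one_add_log L
    rw [harmonic_eq_sum_Icc, Rat.cast_sum] at h1
    refine ((sum_congr rfl fun r _ => by simp).trans_le h1).trans ?_
    refine (show 1 + Real.log L ≤ 1 * (1 + Real.log N) ^ 7 by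
      rw [one_mul]
      exact (show 1 + Real.log L ≤ 1 + Real.log N by linarith).trans
        (le_self_pow₀ (by linarith) (by norm_num))).trans ?_
    gcongr
    exact hT ▸ Real.one_le_rpow hN1 (by norm_num)
  have hT0 : 0 ≤ T := hT ▸ by positivity
  have hW : ∑ r ∈ Icc 1 L, weight r ≤ C * T * (1 + Real.log N) ^ 6 := by
    refine (hC L).trans ?_
    gcongr
  rw [sum_add_distrib, ← mul_sum, ← hT]
  have hw' := mul_le_mul_of_nonneg_right hW
    (show 0 ≤ |(h : ℝ)| * (4 * (1 + Real.log N)) by positivity)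
  have hh' := mul_le_mul_of_nonneg_left hharm (show 0 ≤ 2 * π * |(h : ℝ)| by positivity)
  refine (mul_le_mul_of_nonneg_left (add_le_add (hsum.trans hw') hh')
    (show (0 : ℝ) ≤ (d : ℝ) + 1 by positivity)).trans_eq ?_
  ring

end FA.HooleyPrime
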