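import Fermat.Agent.QuadraticDivisor.Main
import Fermat.Agent.PrimesMinusOne.TotientSum
import Mathlib.NumberTheory.Chebyshev
import Mathlib.Analysis.SpecialFunctions.Log.Monotone

/-!
# Chebyshev's identity for `∏ (n ^ 2 + 1)`

`∑_{n ≤ x} log (n ^ 2 + 1) = ∑_d Λ d N d` with `N d = #{n ≤ x : d ∣ n ^ 2 + 1}`. The `d ≤ x` give at
most `x log x + O (x)`, as `ρ d ≤ 1 + χ₄ d` at prime powers and `∑ χ₄ d Λ d / d` is bounded, and the
higher prime powers `O (x)`: the primes above `x` supply `x log x + O (x)`.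
-/

set_option autoImplicit false

noncomputable section

namespace FA.HooleyPrime

open Finset
open FA.QuadDivisor
open scoped Real Chebyshev ArithmeticFunction.vonMangoldt

/-- `#{n ≤ x : d ∣ n ^ 2 + 1}`. -/
def hits (x d : ℕ) : ℕ := #((Icc 1 x).filter fun n => d ∣ n ^ 2 + 1)

theorem hits_le (x : ℕ) {d : ℕ} (hd : 0 < d) :
    (hits x d : ℝ) ≤ (rootCount d : ℝ) * ((x : ℝ) / d + 1) := by
  have h := (abs_le.1 (abs_card_filter_dvd_sub_le hd 1 x)).2
  rw [show Ico 1 (1 + x) = Icc 1 x by ext; simp only [mem_Ico, mem_Icc]; omega] at h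
  rw [hits, mul_add, mul_one, ← mul_div_assoc]
  linarith

theorem rootCount_primePow_le {d : ℕ} (hd : IsPrimePow d) :
    (rootCount d : ℝ) ≤ 1 + (chiFour d : ℝ) ∧ rootCount d ≤ 2 := by
  obtain ⟨p, a, hp, ha, rfl⟩ := (isPrimePow_nat_iff d).1 hd
  rcases hp.eq_two_or_odd with rfl | ho
  · have hχ : chiFour (2 ^ a) = 0 := by
      rw [chiFour_pow, chiFour_apply, ZMod.χ₄_nat_eq_if_mod_four, if_pos (by norm_num),
        zero_pow ha.ne']
    rcases (show a = 1 ∨ 2 ≤ a by omega) with rfl | ha2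
    · rw [hχ, pow_one, rootCount_two]
      norm_num
    · rw [hχ, rootCount_two_pow ha2]
      norm_num
  rcases (show p % 4 = 1 ∨ p % 4 = 3 by omega) with h | h
  · rw [chiFour_pow, chiFour_apply, ZMod.χ₄_nat_one_mod_four h, one_pow, rootCount_eq_two hp h ha]
    norm_num
  · rw [chiFour_pow, chiFour_apply, ZMod.χ₄_nat_three_mod_four h, rootCount_eq_zero hp h ha]
    rcases neg_one_pow_eq_or ℤ a with e | e <;> rw [e] <;> norm_num

theorem abs_chiFour_le (a : ℕ) : |(chiFour a : ℝ)| ≤ 1 := by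
  rw [chiFour_apply, ZMod.χ₄_nat_eq_if_mod_four]
  split_ifs <;> norm_num

/-- `∑_{n ≤ x} χ₄ n Λ n / n` is bounded. -/
theorem exists_abs_sum_chiFour_vonMangoldt_le : ∃ C : ℝ, ∀ x : ℕ,
    |∑ b ∈ Ioc 0 x, (chiFour b : ℝ) * Λ b / b| ≤ C := by
  refine ⟨4 / π * (1 + (Real.log 4 + 4)), fun x => ?_⟩
  rcases Nat.eq_zero_or_pos x with rfl | hx
  · rw [Ioc_self, sum_empty, abs_zero]
    positivity
  obtain ⟨S, hS⟩ : ∃ S, S = ∑ b ∈ Ioc 0 x, (chiFour b : ℝ) * Λ b / b := ⟨_, rfl⟩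
  have hswap : ∑ n ∈ Ioc 0 x, (chiFour n : ℝ) * (Real.log n / n) = ∑ b ∈ Ioc 0 x,
      (chiFour b : ℝ) * Λ b / b * ∑ a ∈ Ioc 0 (x / b), (chiFour a : ℝ) / a := by
    simp only [← ArithmeticFunction.vonMangoldt_sum, sum_div, mul_sum]
    rw [sum_sigma', sum_sigma']
    refine sum_nbij' (fun p => ⟨p.2, p.1 / p.2⟩) (fun q => ⟨q.1 * q.2, q.1⟩) ?_ ?_ ?_ ?_ ?_
    · intro p hp
      simp only [mem_sigma, mem_Ioc, Nat.mem_divisors] at hp ⊢
      obtain ⟨⟨h1, h2⟩, hd, -⟩ := hp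
      have hb : 0 < p.2 := Nat.pos_of_dvd_of_pos hd h1
      exact ⟨⟨hb, (Nat.le_of_dvd h1 hd).trans h2⟩,
        Nat.div_pos (Nat.le_of_dvd h1 hd) hb, Nat.div_le_div_right h2⟩
    · intro q hq
      simp only [mem_sigma, mem_Ioc, Nat.mem_divisors] at hq ⊢
      obtain ⟨⟨h1, -⟩, h3, h4⟩ := hq
      exact ⟨⟨Nat.mul_pos h1 h3, mul_comm q.2 q.1 ▸ (Nat.le_div_iff_mul_le h1).1 h4⟩,
        dvd_mul_right _ _, (Nat.mul_pos h1 h3).ne'⟩
    · intro p hp
      simp only [mem_sigma, mem_Ioc, Nat.mem_divisors] at hp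
      simp only [Nat.mul_div_cancel' hp.2.1]
    · intro q hq
      simp only [mem_sigma, mem_Ioc] at hq
      simp only [Nat.mul_div_cancel_left _ hq.1.1]
    · intro p hp
      simp only [mem_sigma, mem_Ioc, Nat.mem_divisors] at hp
      obtain ⟨c, hc⟩ := hp.2.1
      have hb : 0 < p.2 := Nat.pos_of_dvd_of_pos hp.2.1 hp.1.1
      simp only [hc, Nat.mul_div_cancel_left _ hb, chiFour_mul]
      push_cast
      ring
  have hlhs : |∑ n ∈ Ioc 0 x, (chiFour n : ℝ) * (Real.log n / n)| ≤ 1 := by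
    have hsmall : ∀ n ∈ Ioc 0 x, (chiFour n : ℝ) * (Real.log n / n) ≠ 0 → 3 ≤ n := by
      intro n hn h0
      rw [mem_Ioc] at hn
      by_contra! hlt
      refine h0 ?_
      obtain rfl | rfl : n = 1 ∨ n = 2 := by omega
      · rw [Nat.cast_one, Real.log_one, zero_div, mul_zero]
      · rw [chiFour_apply, ZMod.χ₄_nat_eq_if_mod_four, if_pos (by norm_num), Int.cast_zero,
          zero_mul]
    rw [← sum_filter_of_ne hsmall,
      show (Ioc 0 x).filter (fun n => 3 ≤ n) = Ico 3 (x + 1) by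
        ext; simp only [mem_filter, mem_Ioc, mem_Ico]; omega]
    rcases lt_or_ge (x + 1) 3 with h3 | h3
    · rw [Ico_eq_empty (by omega), sum_empty, abs_zero]
      exact zero_le_one
    refine (abs_sum_chiFour_mul_le (g := fun n : ℕ => Real.log n / n) (fun a ha => ⟨?_, ?_⟩)
      h3).trans ?_
    · exact div_nonneg (Real.log_natCast_nonneg a) (Nat.cast_nonneg a)
    · have ha3 : (3 : ℝ) ≤ a := by exact_mod_cast ha
      exact Real.log_div_self_antitoneOn (Set.mem_Ici.2 (by linarith [Real.exp_one_lt_three]))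
        (Set.mem_Ici.2 (by push_cast; linarith [Real.exp_one_lt_three])) (by push_cast; linarith)
    · rw [div_le_one (by norm_num)]
      linarith [Real.log_le_sub_one_of_pos (show (0 : ℝ) < ((3 : ℕ) : ℝ) by norm_num)]
  have hx0 : (0 : ℝ) < x := Nat.cast_pos.2 hx
  have herr : |∑ b ∈ Ioc 0 x, (chiFour b : ℝ) * Λ b / b *
      ((∑ a ∈ Ioc 0 (x / b), (chiFour a : ℝ) / a) - π / 4)| ≤ Real.log 4 + 4 := by
    refine (abs_sum_le_sum_abs _ _).trans ((sum_le_sum (g := fun b : ℕ => Λ b / x)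
      fun b hb => ?_).trans ?_)
    · rw [mem_Ioc] at hb
      have hb0 : (0 : ℝ) < b := Nat.cast_pos.2 hb.1
      rw [abs_mul, abs_div, abs_mul, abs_of_nonneg ArithmeticFunction.vonMangoldt_nonneg,
        Nat.abs_cast]
      refine (mul_le_mul (div_le_div_of_nonneg_right (mul_le_of_le_one_left
        ArithmeticFunction.vonMangoldt_nonneg (abs_chiFour_le b)) hb0.le)
        (abs_sum_chiFour_div_sub_le (x / b)) (abs_nonneg _)
        (div_nonneg ArithmeticFunction.vonMangoldt_nonneg hb0.le)).trans ?_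
      rw [div_mul_div_comm, mul_one]
      refine div_le_div_of_nonneg_left ArithmeticFunction.vonMangoldt_nonneg hx0 ?_
      exact_mod_cast (Nat.lt_mul_div_succ x hb.1).le
    · rw [← sum_div, div_le_iff₀ hx0]
      have := Chebyshev.psi_le_const_mul_self hx0.le
      rwa [Chebyshev.psi, Nat.floor_natCast] at this
  simp only [mul_sub, sum_sub_distrib, ← sum_mul, ← hswap, ← hS] at herr
  rw [← hS]
  have h1 : |S * (π / 4)| ≤ 1 + (Real.log 4 + 4) := by
    have := abs_sub_abs_le_abs_sub (S * (π / 4)) (∑ n ∈ Ioc 0 x, (chiFour n : ℝ) * (Real.log n / n))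
    rw [abs_sub_comm] at herr
    linarith
  rw [abs_mul, abs_of_pos (show (0 : ℝ) < π / 4 by positivity)] at h1
  rw [show 4 / π * (1 + (Real.log 4 + 4)) = (1 + (Real.log 4 + 4)) / (π / 4) by field_simp,
    le_div_iff₀ (by positivity)]
  exact h1

/-- **The primes above `x`.** -/
theorem exists_large_primes_ge : ∃ C : ℝ, ∀ x : ℕ, 2 ≤ x → (x : ℝ) * Real.log x - C * x ≤
    ∑ p ∈ (Ioc x (x ^ 2 + 1)).filter Nat.Prime, Real.log p * hits x p := by
  obtain ⟨C1, hC1⟩ := exists_abs_sum_chiFour_vonMangoldt_le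
  obtain ⟨C2, hC2⟩ := Chebyshev.psi_sub_theta_le_mul_sqrt
  refine ⟨2 + (6 + C1 + 2 * (Real.log 4 + 4)) + 4 * (2 * |C2|), fun x hx => ?_⟩
  have hx0 : (0 : ℝ) < x := Nat.cast_pos.2 (by omega)
  have hT : ∑ d ∈ Ioc 0 (x ^ 2 + 1), Λ d * hits x d =
      ∑ n ∈ Icc 1 x, Real.log ((n ^ 2 + 1 : ℕ) : ℝ) := by
    simp only [hits, card_filter, Nat.cast_sum, mul_sum, Nat.cast_ite, Nat.cast_one,
      Nat.cast_zero, mul_ite, mul_one, mul_zero]
    rw [sum_comm]
    refine sum_congr rfl fun n hn => ?_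
    rw [← sum_filter, ← ArithmeticFunction.vonMangoldt_sum]
    refine sum_congr ?_ fun _ _ => rfl
    ext d
    rw [mem_Icc] at hn
    simp only [mem_filter, mem_Ioc, Nat.mem_divisors]
    constructor
    · exact fun h => ⟨h.2, Nat.succ_ne_zero _⟩
    · exact fun h => ⟨⟨Nat.pos_of_dvd_of_pos h.1 (Nat.succ_pos _),
        (Nat.le_of_dvd (Nat.succ_pos _) h.1).trans
          (Nat.add_le_add_right (Nat.pow_le_pow_left hn.2 2) 1)⟩, h.1⟩
  have hlow : 2 * ((x : ℝ) * Real.log x - x) ≤ ∑ d ∈ Ioc 0 (x ^ 2 + 1), Λ d * hits x d := by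
    rw [hT]
    refine le_trans ?_ (sum_le_sum (f := fun n : ℕ => 2 * Real.log n) fun n hn => ?_)
    · rw [← mul_sum, ← Real.log_prod fun n hn => by
        have := (mem_Icc.1 hn).1
        positivity, ← Nat.cast_prod, ← Finset.Ico_add_one_right_eq_Icc, prod_Ico_id_eq_factorial]
      have := Stirling.le_log_factorial_stirling (n := x) (by omega)
      have h1 := Real.log_natCast_nonneg x
      have h2 : 0 ≤ Real.log (2 * π) := Real.log_nonneg (by linarith [Real.two_le_pi])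
      linarith
    · have hn0 : (0 : ℝ) < n := Nat.cast_pos.2 (mem_Icc.1 hn).1
      rw [show (2 : ℝ) * Real.log n = Real.log ((n : ℝ) ^ 2) by rw [Real.log_pow]; norm_num]
      refine Real.log_le_log (by positivity) ?_
      push_cast
      linarith
  have hsmall : ∑ d ∈ Ioc 0 x, Λ d * hits x d ≤
      (x : ℝ) * Real.log x + (6 + C1 + 2 * (Real.log 4 + 4)) * x := by
    refine (sum_le_sum (g := fun d : ℕ => (x : ℝ) * (Λ d / d + (chiFour d : ℝ) * Λ d / d) +
      2 * Λ d) fun d hd => ?_).trans ?_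
    · rcases eq_or_ne (Λ d) 0 with h0 | h0
      · rw [h0]
        simp
      have hd0 : 0 < d := (mem_Ioc.1 hd).1
      obtain ⟨h1, h2⟩ := rootCount_primePow_le (ArithmeticFunction.vonMangoldt_ne_zero_iff.1 h0)
      have hΛ : 0 ≤ Λ d := ArithmeticFunction.vonMangoldt_nonneg
      have h2' : (rootCount d : ℝ) ≤ 2 := Nat.cast_le_ofNat.2 h2
      refine (mul_le_mul_of_nonneg_left (hits_le x hd0) hΛ).trans ?_
      rw [mul_add (rootCount d : ℝ), mul_one, mul_add (Λ d)]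
      refine add_le_add ((mul_le_mul_of_nonneg_left
        (mul_le_mul_of_nonneg_right h1 (by positivity)) hΛ).trans_eq ?_) ?_
      · ring
      · rw [mul_comm 2 (Λ d)]
        exact mul_le_mul_of_nonneg_left h2' hΛ
    · rw [sum_add_distrib, ← mul_sum, ← mul_sum, sum_add_distrib]
      have h1 := (abs_le.1 (PrimesMinusOne.abs_sum_vonMangoldt_div_sub_le (n := x) (by omega))).2
      have h2 := (abs_le.1 (hC1 x)).2
      have h3 := Chebyshev.psi_le_const_mul_self hx0.le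
      rw [Chebyshev.psi, Nat.floor_natCast] at h3
      nlinarith
  have hhigh : ∑ d ∈ (Ioc x (x ^ 2 + 1)).filter (fun d => ¬d.Prime), Λ d * hits x d ≤
      4 * (2 * |C2|) * x := by
    refine (sum_le_sum (g := fun d : ℕ => 4 * Λ d) fun d hd => ?_).trans ?_
    · rcases eq_or_ne (Λ d) 0 with h0 | h0
      · rw [h0]
        simp
      rw [mem_filter, mem_Ioc] at hd
      obtain ⟨-, h2⟩ := rootCount_primePow_le (ArithmeticFunction.vonMangoldt_ne_zero_iff.1 h0)
      have h2' : (rootCount d : ℝ) ≤ 2 := Nat.cast_le_ofNat.2 h2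
      have hdx : (x : ℝ) / d ≤ 1 :=
        (div_le_one (Nat.cast_pos.2 (by omega))).2 (Nat.cast_le.2 hd.1.1.le)
      rw [mul_comm (4 : ℝ)]
      refine mul_le_mul_of_nonneg_left ((hits_le x (by omega)).trans ?_)
        ArithmeticFunction.vonMangoldt_nonneg
      nlinarith [div_nonneg hx0.le (Nat.cast_nonneg (α := ℝ) d)]
    · rw [← mul_sum, mul_assoc 4]
      refine mul_le_mul_of_nonneg_left ?_ (by norm_num)
      have h := hC2 ((x ^ 2 + 1 : ℕ) : ℝ)
      rw [Chebyshev.psi_sub_theta_eq_sum_not_prime, Nat.floor_natCast] at h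
      refine le_trans (le_trans (sum_le_sum_of_subset_of_nonneg (filter_subset_filter _
        (Ioc_subset_Ioc_left (Nat.zero_le x))) fun d _ _ =>
          ArithmeticFunction.vonMangoldt_nonneg) h) ?_
      have hs : Real.sqrt ((x ^ 2 + 1 : ℕ) : ℝ) ≤ 2 * x := by
        rw [Real.sqrt_le_iff]
        refine ⟨by positivity, ?_⟩
        have : (2 : ℝ) ≤ x := Nat.ofNat_le_cast.2 hx
        push_cast
        nlinarith
      nlinarith [le_abs_self C2, abs_nonneg C2, Real.sqrt_nonneg ((x ^ 2 + 1 : ℕ) : ℝ)]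
  have hprime : ∑ p ∈ (Ioc x (x ^ 2 + 1)).filter Nat.Prime, Real.log p * hits x p =
      ∑ p ∈ (Ioc x (x ^ 2 + 1)).filter Nat.Prime, Λ p * hits x p := sum_congr rfl fun p hp => by
    rw [ArithmeticFunction.vonMangoldt_apply_prime (mem_filter.1 hp).2]
  rw [← sum_Ioc_consecutive _ (Nat.zero_le x) (show x ≤ x ^ 2 + 1 by nlinarith),
    ← sum_filter_add_sum_filter_not (Ioc x (x ^ 2 + 1)) Nat.Prime] at hlow
  rw [hprime]
  linarith

end FA.HooleyPrime
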