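import Fermat.Agent.HooleyRoots.Count
import Fermat.Agent.HooleyPrime.Uniform
import Fermat.Agent.CombinatorialSieve.Sieve
import Fermat.Agent.CombinatorialSieve.Dimension
import Fermat.Agent.RichertValues.Mertens
import Mathlib.Algebra.Polynomial.SpecificDegree

/-!
# The main term of the sieve

The sieving primes are the `p ≡ 1 (mod 4)` below `Z`. For `(n ^ 2 + 1) / m` their densities are
`ρ (p m) / (p ρ m)`, that is `1 / p` or `2 / p`, and the upper beta weights, which do not depend on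
`m`, give `≪ ρ m G m / (m log Z)` with `G m = ∏_{p ∣ m} (1 + 2 / p)`, whose average is bounded.
-/

set_option autoImplicit false

noncomputable section

namespace FA.HooleyPrime

open Finset Filter Topology
open FA.QuadDivisor
open FA.CombinatorialSieve
open scoped Real ArithmeticFunction.Moebius Polynomial

theorem card_rootSet (k : ℕ) : #(rootSet k) = rootCount k := rfl

theorem rootCount_prime_le {p : ℕ} (hp : p.Prime) : rootCount p ≤ 2 := by
  rcases hp.eq_two_or_odd with rfl | ho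
  · rw [rootCount_two]; norm_num
  rcases (show p % 4 = 1 ∨ p % 4 = 3 by omega) with h | h
  · rw [← pow_one p, rootCount_eq_two hp h le_rfl]
  · rw [← pow_one p, rootCount_eq_zero hp h le_rfl]; norm_num

/-- `ρ (p n) ≤ 2 ρ n`. -/
theorem rootCount_prime_mul_le {p : ℕ} (hp : p.Prime) {n : ℕ} (hn : n ≠ 0) :
    rootCount (p * n) ≤ 2 * rootCount n := by
  obtain ⟨a, n', hn', rfl⟩ := Nat.exists_eq_pow_mul_and_not_dvd hn p hp.ne_one
  have hco : ∀ b : ℕ, (p ^ b).Coprime n' := fun b =>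
    ((Nat.Prime.coprime_iff_not_dvd hp).2 hn').pow_left b
  rw [← mul_assoc, ← pow_succ', rootCount_mul (hco _), rootCount_mul (hco _), ← mul_assoc]
  refine Nat.mul_le_mul_right _ ?_
  rcases Nat.eq_zero_or_pos a with rfl | ha
  · rw [pow_zero, pow_one, rootCount_one, mul_one]
    exact rootCount_prime_le hp
  rcases hp.eq_two_or_odd with rfl | ho
  · rw [rootCount_two_pow (by omega)]
    exact Nat.zero_le _
  rcases (show p % 4 = 1 ∨ p % 4 = 3 by omega) with h | h
  · rw [rootCount_eq_two hp h (by omega), rootCount_eq_two hp h ha]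
    norm_num
  · rw [rootCount_eq_zero hp h (by omega)]
    exact Nat.zero_le _

theorem rootCount_prime_mul_eq {p : ℕ} (hp : p.Prime) (hp1 : p % 4 = 1) {n : ℕ} (hn : n ≠ 0) :
    rootCount (p * n) = (if p ∣ n then 1 else 2) * rootCount n := by
  obtain ⟨a, n', hn', rfl⟩ := Nat.exists_eq_pow_mul_and_not_dvd hn p hp.ne_one
  have hco : ∀ b : ℕ, (p ^ b).Coprime n' := fun b =>
    ((Nat.Prime.coprime_iff_not_dvd hp).2 hn').pow_left b
  rw [← mul_assoc, ← pow_succ', rootCount_mul (hco _), rootCount_mul (hco _), ← mul_assoc,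
    rootCount_eq_two hp hp1 (by omega)]
  rcases Nat.eq_zero_or_pos a with rfl | ha
  · rw [pow_zero, one_mul, if_neg hn', rootCount_one, mul_one]
  · rw [if_pos (Dvd.dvd.mul_right (dvd_pow_self p ha.ne') n'), rootCount_eq_two hp hp1 ha,
      one_mul]

/-- The local density at `m`. -/
def density (m p : ℕ) : ℝ := if p ∣ m then 1 / (p : ℝ) else 2 / p

theorem rootCount_prod_mul {U : Finset ℕ} (hU : ∀ p ∈ U, p.Prime ∧ p % 4 = 1) {m : ℕ}
    (hm : 0 < m) :
    (rootCount ((∏ p ∈ U, p) * m) : ℝ) / ((∏ p ∈ U, p) * m : ℕ) =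
      (rootCount m : ℝ) / m * ∏ p ∈ U, density m p := by
  induction U using Finset.induction_on with
  | empty => simp
  | insert p U hpU ih =>
    have hU' : ∀ q ∈ U, q.Prime ∧ q % 4 = 1 := fun q hq => hU q (mem_insert_of_mem hq)
    obtain ⟨hp, hp1⟩ := hU p (mem_insert_self p U)
    have hne : (∏ q ∈ U, q) * m ≠ 0 :=
      mul_ne_zero (prod_ne_zero_iff.2 fun q hq => (hU' q hq).1.ne_zero) hm.ne'
    have hiff : p ∣ (∏ q ∈ U, q) * m ↔ p ∣ m := by
      refine ⟨fun h => (hp.dvd_mul.1 h).resolve_left fun h' => hpU ?_, fun h => h.mul_left _⟩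
      obtain ⟨q, hq, hpq⟩ := (hp.prime.dvd_finsetProd_iff _).1 h'
      rwa [(Nat.prime_dvd_prime_iff_eq hp (hU' q hq).1).1 hpq]
    rw [prod_insert hpU, prod_insert hpU, mul_assoc, rootCount_prime_mul_eq hp hp1 hne]
    simp only [hiff]
    rw [show (rootCount m : ℝ) / m * (density m p * ∏ x ∈ U, density m x) =
      density m p * ((rootCount m : ℝ) / m * ∏ x ∈ U, density m x) by ring, ← ih hU', density]
    push_cast
    split_ifs <;> ring

/-- The sieving primes. -/
def sievePrimes (Z : ℝ) : Finset ℕ := (range ⌈Z⌉₊).filter fun p => p.Prime ∧ p % 4 = 1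

theorem mem_sievePrimes {Z : ℝ} {p : ℕ} :
    p ∈ sievePrimes Z ↔ (p : ℝ) < Z ∧ p.Prime ∧ p % 4 = 1 := by
  simp only [sievePrimes, mem_filter, mem_range, Nat.lt_ceil]

/-- Their product. -/
def sieveLevel (Z : ℝ) : ℕ := ∏ p ∈ sievePrimes Z, p

theorem sieveLevel_pos (Z : ℝ) : 0 < sieveLevel Z :=
  prod_pos fun _ hp => (mem_sievePrimes.1 hp).2.1.pos

theorem primeFactors_sieveLevel (Z : ℝ) : (sieveLevel Z).primeFactors = sievePrimes Z :=
  Nat.primeFactors_prod fun _ hp => (mem_sievePrimes.1 hp).2.1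

theorem squarefree_sieveLevel (Z : ℝ) : Squarefree (sieveLevel Z) :=
  squarefree_prod_of_pairwise_isCoprime
    (fun _ ha _ hb h => Nat.coprime_iff_isRelPrime.1 ((Nat.coprime_primes
      (mem_sievePrimes.1 ha).2.1 (mem_sievePrimes.1 hb).2.1).2 h))
    fun _ ha => (mem_sievePrimes.1 ha).2.1.squarefree

theorem irreducible_sq_add_one : Irreducible (Polynomial.X ^ 2 + Polynomial.C 1 : ℤ[X]) := by
  have hdeg : (Polynomial.X ^ 2 + Polynomial.C 1 : ℤ[X]).natDegree = 2 :=
    Polynomial.natDegree_X_pow_add_C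
  have hm : (Polynomial.X ^ 2 + Polynomial.C 1 : ℤ[X]).Monic :=
    Polynomial.monic_X_pow_add_C 1 two_ne_zero
  rw [hm.irreducible_iff_roots_eq_zero_of_degree_le_three hdeg.ge (by rw [hdeg]; norm_num),
    Multiset.eq_zero_iff_forall_notMem]
  intro a ha
  rw [Polynomial.mem_roots hm.ne_zero, Polynomial.IsRoot] at ha
  simp only [Polynomial.eval_add, Polynomial.eval_pow, Polynomial.eval_X, Polynomial.eval_C] at ha
  nlinarith [sq_nonneg a]

theorem rootMod_sq_add_one (p : ℕ) :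
    RichertValues.rootMod (Polynomial.X ^ 2 + Polynomial.C 1) p = rootCount p := by
  rw [RichertValues.rootMod, rootCount_apply]
  refine congrArg card (filter_congr fun r _ => ?_)
  simp only [Polynomial.eval_add, Polynomial.eval_pow, Polynomial.eval_X, Polynomial.eval_C]
  rw [← Int.natCast_dvd_natCast]
  push_cast
  rfl

/-- **`∏ (1 - 2 / p) ≪ 1 / log Z`.** -/
theorem exists_prod_sievePrimes_le : ∃ C Z0 : ℝ, 0 < C ∧ ∀ Z : ℝ, Z0 ≤ Z →
    ∏ p ∈ sievePrimes Z, (1 - 2 / (p : ℝ)) ≤ C / Real.log Z := by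
  obtain ⟨C, hC⟩ := RichertValues.exists_tendsto_rootSum irreducible_sq_add_one
    (by rw [Polynomial.natDegree_X_pow_add_C]; norm_num)
  obtain ⟨N, hN⟩ := eventually_atTop.1 (hC.eventually (eventually_gt_nhds (sub_one_lt C)))
  refine ⟨2 * Real.exp (2 - C), max 16 ((N : ℝ) + 1), by positivity, fun Z hZ => ?_⟩
  rw [max_le_iff] at hZ
  obtain ⟨n, hn⟩ : ∃ n, n = ⌈Z⌉₊ - 1 := ⟨_, rfl⟩
  have hce : Z ≤ ((n + 1 : ℕ) : ℝ) := by
    refine (Nat.le_ceil Z).trans (Nat.cast_le.2 ?_)
    omega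
  have hNn : N ≤ n := by
    have : ((N + 1 : ℕ) : ℝ) ≤ ((n + 1 : ℕ) : ℝ) := by push_cast at hce ⊢; linarith
    have := Nat.cast_le.1 this
    omega
  have h := hN n hNn
  have hn3 : (3 : ℝ) ≤ n := by push_cast at hce; linarith
  have hlog : Real.log Z / 2 ≤ Real.log n := by
    have h2 : Z ≤ (n : ℝ) ^ 2 := by push_cast at hce; nlinarith
    have := Real.log_le_log (by linarith) h2
    rw [Real.log_pow] at this
    push_cast at this
    linarith
  have hl0 : 0 < Real.log Z := Real.log_pos (by linarith)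
  have hln : 0 < Real.log n := by linarith
  have hsum : RichertValues.rootSumUpTo (Polynomial.X ^ 2 + Polynomial.C 1) n ≤
      1 / 2 + ∑ p ∈ sievePrimes Z, 2 / (p : ℝ) := by
    rw [RichertValues.rootSumUpTo]
    simp only [rootMod_sq_add_one]
    refine (sum_le_sum (g := fun p : ℕ => (if p = 2 then (1 : ℝ) / 2 else 0) +
      (if p % 4 = 1 then 2 / (p : ℝ) else 0)) fun p hp => ?_).trans ?_
    · have hpp := (mem_filter.1 hp).2
      rcases hpp.eq_two_or_odd with rfl | ho
      · rw [rootCount_two, if_pos rfl, if_neg (by norm_num)]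
        norm_num
      rcases (show p % 4 = 1 ∨ p % 4 = 3 by omega) with h' | h'
      · have : rootCount p = 2 := by rw [← pow_one p, rootCount_eq_two hpp h' le_rfl]
        rw [this, if_neg (by omega), if_pos h', zero_add]
        norm_num
      · have : rootCount p = 0 := by rw [← pow_one p, rootCount_eq_zero hpp h' le_rfl]
        rw [this, if_neg (by omega), if_neg (by omega)]
        norm_num
    · rw [sum_add_distrib, sum_ite_eq', ← sum_filter]
      refine add_le_add ?_ (sum_le_sum_of_subset_of_nonneg (fun p hp => ?_)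
        fun p _ _ => by positivity)
      · split_ifs <;> norm_num
      · simp only [mem_filter, mem_Icc] at hp
        rw [sievePrimes, mem_filter, mem_range]
        exact ⟨by omega, hp.1.2, hp.2⟩
  refine (prod_le_prod (g := fun p : ℕ => Real.exp (-(2 / (p : ℝ)))) (fun p hp => ?_)
    fun (p : ℕ) _ => show 1 - 2 / (p : ℝ) ≤ Real.exp (-(2 / p)) by
      linarith [Real.add_one_le_exp (-(2 / (p : ℝ)))]).trans ?_
  · rw [sub_nonneg, div_le_one (Nat.cast_pos.2 (mem_sievePrimes.1 hp).2.1.pos)]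
    exact_mod_cast (mem_sievePrimes.1 hp).2.1.two_le
  rw [← Real.exp_sum, sum_neg_distrib, le_div_iff₀ hl0]
  have he : Real.exp (-∑ p ∈ sievePrimes Z, 2 / (p : ℝ)) ≤
      Real.exp (2 - C) / Real.log n := by
    rw [← Real.exp_log hln, ← Real.exp_sub, Real.exp_le_exp]
    linarith
  refine (mul_le_mul he (show Real.log Z ≤ 2 * Real.log n by linarith) hl0.le
    (by positivity)).trans_eq ?_
  field_simp

/-- `G m = ∏_{p ∣ m} (1 + 2 / p)`. -/
def primeFactor (m : ℕ) : ℝ := ∏ p ∈ m.primeFactors, (1 + 2 / (p : ℝ))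

theorem prod_one_sub_density_le (Z : ℝ) {m : ℕ} (hm : 0 < m) :
    ∏ p ∈ sievePrimes Z, (1 - density m p) ≤
      (∏ p ∈ sievePrimes Z, (1 - 2 / (p : ℝ))) * primeFactor m := by
  have h5 : ∀ p ∈ sievePrimes Z, (5 : ℝ) ≤ p := fun p hp => by
    obtain ⟨-, hpp, h1⟩ := mem_sievePrimes.1 hp
    have := hpp.two_le
    exact_mod_cast (show 5 ≤ p by omega)
  have hpos : 0 ≤ ∏ p ∈ sievePrimes Z, (1 - 2 / (p : ℝ)) := prod_nonneg fun p hp => by
    rw [sub_nonneg, div_le_one (by linarith [h5 p hp])]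
    linarith [h5 p hp]
  refine (prod_le_prod (fun p hp => ?_) (g := fun p : ℕ => (1 - 2 / (p : ℝ)) *
    if p ∣ m then 1 + 2 / (p : ℝ) else 1) fun p hp => ?_).trans ?_
  · have := h5 p hp
    rw [sub_nonneg, density]
    split_ifs <;> rw [div_le_one (by linarith)] <;> linarith
  · have := h5 p hp
    rw [density]
    split_ifs
    · rw [one_sub_div (by linarith), one_sub_div (by linarith), one_add_div (by linarith),
        div_mul_div_comm, div_le_div_iff₀ (by linarith) (by positivity)]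
      nlinarith
    · rw [mul_one]
  · rw [prod_mul_distrib, ← prod_filter]
    refine mul_le_mul_of_nonneg_left (prod_le_prod_of_subset_of_one_le (fun p hp => ?_)
      (fun p _ => by positivity) fun p _ _ => le_add_of_nonneg_right (by positivity)) hpos
    obtain ⟨h1, h2⟩ := mem_filter.1 hp
    exact Nat.mem_primeFactors.2 ⟨(mem_sievePrimes.1 h1).2.1, h2, hm.ne'⟩

/-- **The main term.** -/
theorem exists_mainTerm_le : ∃ C Z0 : ℝ, 0 < C ∧ ∀ Z : ℝ, Z0 ≤ Z → ∀ m : ℕ, 0 < m →
    ∑ d ∈ (sieveLevel Z).divisors, betaWeight (Z ^ (19 : ℝ)) 19 1 d *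
        ((rootCount (d * m) : ℝ) / (d * m : ℕ)) ≤
      C / Real.log Z * ((rootCount m : ℝ) / m * primeFactor m) := by
  obtain ⟨C, Z0, hC0, hC⟩ := exists_prod_sievePrimes_le
  obtain ⟨A, hA⟩ : ∃ A : ℝ, A = 1 + 20 * Real.exp ((19 : ℕ) : ℝ) *
      Real.exp (11 * 2 + 8) ^ 10 * Real.exp (-(19 : ℝ)) := ⟨_, rfl⟩
  have hA0 : 0 < A := by rw [hA]; positivity
  refine ⟨A * C, max Z0 2, by positivity, fun Z hZ m hm => ?_⟩
  rw [max_le_iff] at hZ
  have hT : ∀ p ∈ sievePrimes Z, p.Prime ∧ (p : ℝ) < Z := fun p hp =>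
    ⟨(mem_sievePrimes.1 hp).2.1, (mem_sievePrimes.1 hp).1⟩
  have h5 : ∀ p ∈ sievePrimes Z, (5 : ℝ) ≤ p := fun p hp => by
    obtain ⟨-, hpp, h1⟩ := mem_sievePrimes.1 hp
    have := hpp.two_le
    exact_mod_cast (show 5 ≤ p by omega)
  have hx : ∀ p ∈ sievePrimes Z, 0 ≤ density m p ∧ density m p < 1 := fun p hp => by
    have := h5 p hp
    rw [density]
    split_ifs <;> exact ⟨by positivity, by rw [div_lt_one (by linarith)]; linarith⟩
  have hbd : ∀ p ∈ sievePrimes Z,
      density m p / (1 - density m p) ≤ 2 / (p : ℝ) + 8 / (p : ℝ) ^ 2 := fun p hp => by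
    have h := h5 p hp
    have hle : density m p ≤ 2 / (p : ℝ) := by
      rw [density]
      split_ifs
      · gcongr; norm_num
      · exact le_rfl
    have h2 : 2 / (p : ℝ) < 1 := by rw [div_lt_one (by linarith)]; linarith
    refine (div_le_div₀ (by positivity) hle (by linarith) (by linarith : 1 - 2 / (p : ℝ) ≤
      1 - density m p)).trans ?_
    rw [one_sub_div (by linarith), div_div_div_cancel_right₀ (by linarith),
      div_add_div _ _ (by linarith) (by positivity), div_le_div_iff₀ (by linarith) (by positivity)]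
    nlinarith
  have hdim := dimensionBound_of_le (κ := 2) (B := 8) zero_le_two (by norm_num) hT hx hbd
  have hdef := defect_le (par := 1) (β := 19) (s := (19 : ℝ))
    (fun p hp => ⟨(hT p hp).1.two_le, (hT p hp).2⟩) hx hZ.2 zero_le_two (by norm_num) (by norm_num)
    (by norm_num) (Real.one_le_exp (by norm_num)) (by norm_num) hdim
  have htr : truncSum (Z ^ (19 : ℝ)) 19 1 (sievePrimes Z) (density m) ≤
      A * ∏ p ∈ sievePrimes Z, (1 - density m p) := by
    rw [truncSum_eq, pow_one, neg_one_mul, sub_neg_eq_add, hA, add_mul, one_mul]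
    exact add_le_add le_rfl hdef
  have hρm : 0 ≤ (rootCount m : ℝ) / m := by positivity
  refine le_trans (le_of_eq ?_) ((mul_le_mul_of_nonneg_left (htr.trans
    (mul_le_mul_of_nonneg_left ((prod_one_sub_density_le Z hm).trans
      (mul_le_mul_of_nonneg_right (hC Z hZ.1) (prod_nonneg fun p _ => by positivity))) hA0.le))
    hρm).trans_eq (by ring))
  rw [← primeFactors_sieveLevel Z,
    ← sum_betaWeight_mul (squarefree_sieveLevel Z) _ _ _
      (fun d => ∏ p ∈ d.primeFactors, density m p)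
      (density m) (fun d _ => rfl), mul_sum]
  refine sum_congr rfl fun d hd => ?_
  have hdd := Nat.dvd_of_mem_divisors hd
  have hsq := (squarefree_sieveLevel Z).squarefree_of_dvd hdd
  have hU : ∀ p ∈ d.primeFactors, p.Prime ∧ p % 4 = 1 := fun p hp =>
    (mem_sievePrimes.1 (primeFactors_sieveLevel Z ▸
      Nat.primeFactors_mono hdd (sieveLevel_pos Z).ne' hp)).2
  have h := rootCount_prod_mul hU hm
  rw [Nat.prod_primeFactors_of_squarefree hsq] at h
  rw [h]
  ring

/-! ### The average over `m` -/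

theorem rootCount_prod_le {U : Finset ℕ} (hU : ∀ p ∈ U, p.Prime) {f : ℕ} (hf : f ≠ 0) :
    (rootCount ((∏ p ∈ U, p) * f) : ℝ) ≤ 2 ^ #U * rootCount f := by
  induction U using Finset.induction_on with
  | empty => simp
  | insert p U hpU ih =>
    have hU' : ∀ q ∈ U, q.Prime := fun q hq => hU q (mem_insert_of_mem hq)
    rw [prod_insert hpU, mul_assoc, card_insert_of_notMem hpU, pow_succ', mul_assoc]
    refine le_trans ?_ (mul_le_mul_of_nonneg_left (ih hU') zero_le_two)
    exact_mod_cast rootCount_prime_mul_le (hU p (mem_insert_self p U))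
      (mul_ne_zero (prod_ne_zero_iff.2 fun q hq => (hU' q hq).ne_zero) hf)

theorem exists_sum_rootCount_Ioc_le : ∃ C : ℝ, 0 < C ∧ ∀ (e M0 M2 : ℕ), 0 < e → 1 ≤ M0 → M0 ≤ M2 →
    ∑ f ∈ Ioc (M0 / e) (M2 / e), (rootCount f : ℝ) / f ≤ Real.log ((M2 : ℝ) / M0) + C := by
  obtain ⟨K, hK⟩ := exists_sum_rootCount_div
  refine ⟨2 * |K| + 1, by positivity, fun e M0 M2 he hM0 hM => ?_⟩
  have hM0R : (1 : ℝ) ≤ M0 := Nat.one_le_cast.2 hM0
  have hMR : (M0 : ℝ) ≤ M2 := Nat.cast_le.2 hM
  have he0 : (0 : ℝ) < e := Nat.cast_pos.2 he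
  have hL : 0 ≤ Real.log ((M2 : ℝ) / M0) := Real.log_nonneg ((one_le_div (by linarith)).2 hMR)
  obtain ⟨a, ha⟩ : ∃ a, a = M0 / e := ⟨_, rfl⟩
  obtain ⟨b, hb⟩ : ∃ b, b = M2 / e := ⟨_, rfl⟩
  rw [← ha, ← hb]
  rcases Nat.eq_zero_or_pos b with hb0 | hb1
  · rw [hb0, Ioc_eq_empty (by omega), sum_empty]
    positivity
  have hbR : (1 : ℝ) ≤ b := Nat.one_le_cast.2 hb1
  have hbM : (b : ℝ) ≤ (M2 : ℝ) / e := hb ▸ Nat.cast_div_le
  have hpi : 3 / (2 * π) ≤ 1 := by
    rw [div_le_one (by positivity)]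
    linarith [Real.pi_gt_three]
  have hpi0 : 0 ≤ 3 / (2 * π) := by positivity
  have hKb := abs_le.1 (hK b hb1)
  have hlog2 : Real.log 2 ≤ 1 := by linarith [Real.log_two_lt_d9]
  rcases Nat.eq_zero_or_pos a with ha0 | ha1
  · have hM0e : (M0 : ℝ) < e := by
      rw [ha] at ha0
      exact_mod_cast (Nat.div_eq_zero_iff.1 ha0).resolve_left he.ne'
    have hlb : Real.log b ≤ Real.log ((M2 : ℝ) / M0) :=
      Real.log_le_log (by linarith) (hbM.trans (div_le_div_of_nonneg_left (by positivity)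
        (by linarith) hM0e.le))
    rw [ha0]
    nlinarith [le_abs_self K, Real.log_nonneg hbR]
  · have hab : a ≤ b := ha ▸ hb ▸ Nat.div_le_div_right hM
    have haR : (1 : ℝ) ≤ a := Nat.one_le_cast.2 ha1
    have haM : (M0 : ℝ) / e ≤ (a : ℝ) * 2 := by
      have h1 : (M0 : ℝ) ≤ ((e * (a + 1) : ℕ) : ℝ) :=
        Nat.cast_le.2 (ha ▸ (Nat.lt_mul_div_succ M0 he).le)
      rw [div_le_iff₀ he0]
      push_cast at h1
      nlinarith
    have hKa := abs_le.1 (hK a ha1)
    rw [← sum_Ioc_consecutive _ (Nat.zero_le a) hab] at hKb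
    have hlb : Real.log b ≤ Real.log ((M2 : ℝ) / M0) + Real.log a + Real.log 2 := by
      have hq : (0 : ℝ) < (M2 : ℝ) / M0 := div_pos (by linarith) (by linarith)
      rw [← Real.log_mul hq.ne' (ne_of_gt (show (0 : ℝ) < a by linarith)),
        ← Real.log_mul (ne_of_gt (mul_pos hq (show (0 : ℝ) < a by linarith))) (by norm_num)]
      refine Real.log_le_log (by linarith) (hbM.trans ?_)
      calc (M2 : ℝ) / e = (M2 : ℝ) / M0 * ((M0 : ℝ) / e) := by field_simp
        _ ≤ (M2 : ℝ) / M0 * ((a : ℝ) * 2) := by gcongr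
        _ = _ := by ring
    have hla : Real.log a ≤ Real.log b := Real.log_le_log (by linarith) (Nat.cast_le.2 hab)
    nlinarith [le_abs_self K]

/-- **`∑ ρ m G m / m` over a range.** -/
theorem exists_sum_primeFactor_le : ∃ C : ℝ, 0 < C ∧ ∀ (M0 M2 : ℕ), 1 ≤ M0 → M0 ≤ M2 →
    ∑ m ∈ Ioc M0 M2, (rootCount m : ℝ) / m * primeFactor m ≤
      C * (Real.log ((M2 : ℝ) / M0) + 1) := by
  obtain ⟨K, hK0, hK⟩ := exists_sum_rootCount_Ioc_le
  refine ⟨Real.exp 4 * max K 1, by positivity, fun M0 M2 hM0 hM => ?_⟩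
  obtain ⟨P, hP⟩ : ∃ P, P = (range (M2 + 1)).filter Nat.Prime := ⟨_, rfl⟩
  obtain ⟨L, hL⟩ : ∃ L : ℝ, L = max K 1 * (Real.log ((M2 : ℝ) / M0) + 1) := ⟨_, rfl⟩
  have hlog : 0 ≤ Real.log ((M2 : ℝ) / M0) := Real.log_nonneg
    ((one_le_div (Nat.cast_pos.2 hM0)).2 (Nat.cast_le.2 hM))
  have hG : ∀ m ∈ Ioc M0 M2, (rootCount m : ℝ) / m * primeFactor m = ∑ U ∈ P.powerset,
      (if (∏ p ∈ U, p) ∣ m then (rootCount m : ℝ) / m * ∏ p ∈ U, 2 / (p : ℝ) else 0) := by
    intro m hm
    rw [mem_Ioc] at hm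
    rw [← sum_filter, primeFactor, prod_one_add, mul_sum]
    refine sum_congr (Finset.ext fun U => ?_) fun _ _ => rfl
    rw [mem_powerset, mem_filter, mem_powerset, hP]
    constructor
    · intro h
      refine ⟨fun p hp => mem_filter.2 ⟨mem_range.2 ?_, Nat.prime_of_mem_primeFactors (h hp)⟩,
        (prod_dvd_prod_of_subset _ _ (fun p => p) h).trans (Nat.prod_primeFactors_dvd m)⟩
      have := Nat.le_of_mem_primeFactors (h hp)
      omega
    · rintro ⟨h1, h2⟩ p hp
      exact Nat.mem_primeFactors.2 ⟨(mem_filter.1 (h1 hp)).2,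
        (dvd_prod_of_mem _ hp).trans h2, by omega⟩
  rw [sum_congr rfl hG, sum_comm]
  refine (sum_le_sum (g := fun U : Finset ℕ => (∏ p ∈ U, 4 * ((p : ℝ) ^ 2)⁻¹) * L)
    fun U hU => ?_).trans ?_
  · rw [mem_powerset, hP] at hU
    have hUp : ∀ p ∈ U, p.Prime := fun p hp => (mem_filter.1 (hU hp)).2
    obtain ⟨e, he⟩ : ∃ e, e = ∏ p ∈ U, p := ⟨_, rfl⟩
    have he0 : 0 < e := he ▸ prod_pos fun p hp => (hUp p hp).pos
    rw [← he, ← sum_filter, ← sum_mul,
      show (Ioc M0 M2).filter (fun m => e ∣ m) =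
        (Ioc (M0 / e) (M2 / e)).image (fun f => e * f) by
        ext m
        simp only [mem_filter, mem_image, mem_Ioc]
        constructor
        · rintro ⟨⟨h1, h2⟩, f, rfl⟩
          exact ⟨f, ⟨Nat.div_lt_of_lt_mul h1, (Nat.le_div_iff_mul_le he0).2
            (mul_comm e f ▸ h2)⟩, rfl⟩
        · rintro ⟨f, ⟨h1, h2⟩, rfl⟩
          refine ⟨⟨?_, mul_comm f e ▸ (Nat.le_div_iff_mul_le he0).1 h2⟩, dvd_mul_right _ _⟩
          exact mul_comm f e ▸ (Nat.div_lt_iff_lt_mul he0).1 h1,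
      sum_image fun x _ y _ h => Nat.eq_of_mul_eq_mul_left he0 h]
    have hterm : ∀ f ∈ Ioc (M0 / e) (M2 / e), (rootCount (e * f) : ℝ) / (e * f : ℕ) ≤
        (∏ p ∈ U, 2 / (p : ℝ)) * ((rootCount f : ℝ) / f) := by
      intro f hf
      rw [mem_Ioc] at hf
      rw [prod_div_distrib, prod_const, ← Nat.cast_prod, ← he, div_mul_div_comm, Nat.cast_mul]
      gcongr
      exact he ▸ rootCount_prod_le hUp ((Nat.zero_le _).trans_lt hf.1).ne'
    refine (mul_le_mul_of_nonneg_right (sum_le_sum hterm) (by positivity)).trans ?_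
    rw [← mul_sum, mul_right_comm, ← prod_mul_distrib]
    refine mul_le_mul (le_of_eq (prod_congr rfl fun p _ => by ring)) ?_ (by positivity)
      (by positivity)
    refine (hK e M0 M2 he0 hM0 hM).trans ?_
    rw [hL, mul_add, mul_one]
    exact add_le_add (le_mul_of_one_le_left hlog (le_max_right _ _)) (le_max_left _ _)
  · rw [← sum_mul, ← prod_one_add, hL, ← mul_assoc]
    refine mul_le_mul_of_nonneg_right (mul_le_mul_of_nonneg_right ?_
      (le_max_of_le_right zero_le_one)) (by linarith)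
    refine (prod_le_prod (fun p _ => by positivity)
      fun p _ => (add_comm (1 : ℝ) _).trans_le (Real.add_one_le_exp _)).trans ?_
    rw [← Real.exp_sum, Real.exp_le_exp, ← mul_sum]
    have := sum_inv_sq_primes_le (T := P) fun p hp => ((mem_filter.1 (hP ▸ hp)).2).two_le
    linarith

end FA.HooleyPrime
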