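import Fermat.Agent.HooleyPrime.Majorant
import Fermat.Agent.HooleyPrime.Sieve

/-!
# The sifted sum over `m`

The count of the `n ≤ x` with `m ∣ n ^ 2 + 1` and `(n ^ 2 + 1) / m` free of the sieving primes,
summed over a range of `m`: at most `x (log (M₂ / M₀) + 1) / log Z` up to the exponential sums.
-/

set_option autoImplicit false

noncomputable section

namespace FA.HooleyPrime

open Finset
open FA.QuadDivisor (rootCount)
open FA.CombinatorialSieve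
open scoped Real

/-- The sifted count at `m`. -/
def sifted (x : ℕ) (Z : ℝ) (m : ℕ) : ℕ :=
  #((Icc 1 x).filter fun n => m ∣ n ^ 2 + 1 ∧ (sieveLevel Z).Coprime ((n ^ 2 + 1) / m))

/-- The majorant sum at `d m`. -/
def majorant (x : ℕ) (Z : ℝ) (m d : ℕ) : ℝ :=
  ∑ n ∈ (range (m * sieveLevel Z * (8 * x))).filter (fun n => d * m ∣ n ^ 2 + 1),
    kernel (m * sieveLevel Z * (8 * x)) (m * sieveLevel Z) n

theorem sifted_le (x : ℕ) (Z : ℝ) {m : ℕ} (hm : 0 < m) :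
    (sifted x Z m : ℝ) ≤
      2 * ∑ d ∈ (sieveLevel Z).divisors, betaWeight (Z ^ (19 : ℝ)) 19 1 d * majorant x Z m d := by
  obtain ⟨P, hP⟩ : ∃ P, P = sieveLevel Z := ⟨_, rfl⟩
  have hP0 : 0 < P := hP ▸ sieveLevel_pos Z
  obtain ⟨Q, hQ⟩ : ∃ Q, Q = m * P * (8 * x) := ⟨_, rfl⟩
  obtain ⟨J, hJ⟩ : ∃ J, J = m * P := ⟨_, rfl⟩
  have hmP : 1 ≤ m * P := Nat.mul_pos hm hP0
  have hupper : ∀ n : ℕ, (if P.Coprime n then (1 : ℝ) else 0) ≤
      ∑ d ∈ P.divisors, betaWeight (Z ^ (19 : ℝ)) 19 1 d * if d ∣ n then (1 : ℝ) else 0 :=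
    fun n => le_sum_betaWeight_upper (hP ▸ squarefree_sieveLevel Z) _ _ n
  have hswap : ∑ d ∈ P.divisors, betaWeight (Z ^ (19 : ℝ)) 19 1 d * majorant x Z m d =
      ∑ n ∈ range Q, kernel Q J n * if m ∣ n ^ 2 + 1 then
        ∑ d ∈ P.divisors, betaWeight (Z ^ (19 : ℝ)) 19 1 d *
          if d ∣ (n ^ 2 + 1) / m then (1 : ℝ) else 0 else 0 := by
    simp only [majorant, sum_filter, mul_sum, ← hP]
    rw [← hQ, ← hJ]
    rw [sum_comm]
    refine sum_congr rfl fun n _ => ?_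
    split_ifs with hmn
    · rw [mul_sum]
      refine sum_congr rfl fun d _ => ?_
      simp only [Nat.dvd_div_iff_mul_dvd hmn, mul_comm m d]
      split_ifs <;> ring
    · rw [mul_zero]
      refine sum_eq_zero fun d _ => ?_
      rw [if_neg fun h => hmn ((dvd_mul_left m d).trans h), mul_zero]
  rw [← hP, hswap, sifted, card_filter, Nat.cast_sum, mul_sum]
  have hsub : Icc 1 x ⊆ range Q := fun n hn => by
    rw [mem_Icc] at hn
    rw [mem_range, hQ]
    have := Nat.mul_le_mul_right (8 * x) hmP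
    omega
  have hnonneg : ∀ n : ℕ, 0 ≤ if m ∣ n ^ 2 + 1 then
      ∑ d ∈ P.divisors, betaWeight (Z ^ (19 : ℝ)) 19 1 d *
        if d ∣ (n ^ 2 + 1) / m then (1 : ℝ) else 0 else 0 := fun n => by
    split_ifs
    · exact le_trans (by split_ifs <;> norm_num) (hupper _)
    · exact le_rfl
  refine le_trans (sum_le_sum fun n hn => ?_) (sum_le_sum_of_subset_of_nonneg hsub fun n _ _ =>
    mul_nonneg zero_le_two (mul_nonneg (kernel_nonneg _ _ _) (hnonneg n)))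
  rw [mem_Icc] at hn
  have hk : 1 / 2 ≤ kernel Q J n := half_le_kernel (hJ ▸ hmP) (by
    rw [hQ, hJ, mul_comm (m * P) (8 * x)]
    gcongr
    exact hn.2)
  rw [← hP, Nat.cast_ite, Nat.cast_one, Nat.cast_zero, ← mul_assoc]
  refine le_trans ?_ (le_mul_of_one_le_left (hnonneg n) (by linarith))
  by_cases hmn : m ∣ n ^ 2 + 1
  · rw [if_pos hmn]
    refine le_trans (le_of_eq ?_) (hupper _)
    simp only [hmn, true_and]
  · rw [if_neg hmn, if_neg fun h => hmn h.1]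

/-- The error of the majorant. -/
def majorantErr (x : ℕ) (Z : ℝ) (m d : ℕ) : ℝ :=
  majorant x Z m d - 8 * x * ((rootCount (d * m) : ℝ) / (d * m : ℕ))

theorem majorantErr_eq {x : ℕ} (hx : 0 < x) (Z : ℝ) {m d H : ℕ} (hm : 0 < m)
    (hd : d ∣ sieveLevel Z) (hH : ((d * m : ℕ) : ℝ) ≤ (H : ℝ) * (8 * x)) :
    ((majorantErr x Z m d : ℝ) : ℂ) = ∑ h ∈ (Icc (-(H : ℤ)) H).erase 0,
      (coeff (8 * x) (|(h : ℝ)| * (8 * x)) (d * m) : ℂ) * expRoots h (d * m) := by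
  obtain ⟨c, hc⟩ := hd
  have hP0 := sieveLevel_pos Z
  have hd0 : 0 < d := Nat.pos_of_ne_zero fun h => hP0.ne' (by rw [hc, h, zero_mul])
  have hc0 : 0 < c := Nat.pos_of_ne_zero fun h => hP0.ne' (by rw [hc, h, mul_zero])
  have hQ : m * sieveLevel Z * (8 * x) = d * m * (c * (8 * x)) := by rw [hc]; ring
  have hXeq : (8 * x : ℝ) =
      ((d * m : ℕ) : ℝ) * (c * (8 * x) : ℕ) / (m * sieveLevel Z : ℕ) := by
    rw [eq_div_iff (Nat.cast_ne_zero.2 (Nat.mul_pos hm hP0).ne'), hc]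
    push_cast
    ring
  rw [← sum_kernel_sub_eq (Nat.mul_pos hd0 hm) (Nat.mul_pos hc0 (by omega)) (Nat.mul_pos hm hP0)
    hXeq hH, majorantErr, majorant, hQ, card_rootSet, Complex.ofReal_sub, mul_div_assoc]

/-- **The errors summed over `m`.** -/
theorem exists_abs_sum_majorantErr_le : ∃ C : ℝ, 0 < C ∧
    ∀ (x : ℕ) (Z : ℝ) (d M0 M2 H : ℕ), 0 < x → d ∣ sieveLevel Z → 1 ≤ M0 → M0 ≤ M2 →
      ((d * M2 : ℕ) : ℝ) ≤ (H : ℝ) * (8 * x) →
      |∑ m ∈ Ioc M0 M2, majorantErr x Z m d| ≤ C * x * (H : ℝ) ^ 2 / M0 *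
        ((d * M2 : ℕ) : ℝ) ^ (3 / 4 : ℝ) * (1 + Real.log (d * M2 : ℕ)) ^ 7 := by
  obtain ⟨C, hC0, hC⟩ := exists_norm_sum_expRoots_le
  refine ⟨192 * C, by positivity, fun x Z d M0 M2 H hx hd hM0 hM hH => ?_⟩
  have hd0 : 0 < d := Nat.pos_of_dvd_of_pos hd (sieveLevel_pos Z)
  rcases eq_or_lt_of_le hM with rfl | hlt
  · rw [Ioc_self, sum_empty, abs_zero]
    have := Real.log_natCast_nonneg (d * M0)
    positivity
  obtain ⟨T, hT⟩ : ∃ T : ℝ, T = ((d * M2 : ℕ) : ℝ) ^ (3 / 4 : ℝ) *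
      (1 + Real.log (d * M2 : ℕ)) ^ 7 := ⟨_, rfl⟩
  have hT0 : 0 ≤ T := by
    rw [hT]
    have := Real.log_natCast_nonneg (d * M2)
    positivity
  have hd1 : (1 : ℝ) ≤ d := Nat.one_le_cast.2 hd0
  have hM0R : (1 : ℝ) ≤ M0 := Nat.one_le_cast.2 hM0
  have hX0 : (0 : ℝ) ≤ 8 * x := by positivity
  have hpart : ∀ h : ℤ, h ≠ 0 → |(h : ℝ)| ≤ H → ∀ M, M0 ≤ M → M ≤ M2 →
      ‖∑ m ∈ Ioc M0 M, expRoots h (d * m)‖ ≤ 2 * (C * (d + 1) * H * T) := by
    intro h hh hhH M hM0' hM2'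
    have hfull : ∀ L, L ≤ M2 → ‖∑ m ∈ Ioc 0 L, expRoots h (d * m)‖ ≤ C * (d + 1) * H * T := by
      intro L hL
      have e : ∑ m ∈ Ioc 0 L, expRoots h (d * m) =
          ∑ k ∈ (Ioc 0 (d * L)).filter (fun k => d ∣ k), expRoots h k := by
        refine sum_nbij' (fun m => d * m) (fun k => k / d) ?_ ?_ ?_ ?_ fun _ _ => rfl
        · intro m hm
          rw [mem_Ioc] at hm
          simp only [mem_filter, mem_Ioc]
          exact ⟨⟨Nat.mul_pos hd0 hm.1, Nat.mul_le_mul_left d hm.2⟩, dvd_mul_right d m⟩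
        · intro k hk
          simp only [mem_filter, mem_Ioc] at hk
          rw [mem_Ioc]
          exact ⟨Nat.div_pos (Nat.le_of_dvd hk.1.1 hk.2) hd0,
            Nat.div_le_of_le_mul hk.1.2⟩
        · exact fun m _ => Nat.mul_div_cancel_left m hd0
        · intro k hk
          simp only [mem_filter] at hk
          exact Nat.mul_div_cancel' hk.2
      rcases Nat.eq_zero_or_pos L with rfl | hL0
      · rw [Ioc_self, sum_empty, norm_zero]
        positivity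
      rw [e]
      refine (hC h hh d (d * L) hd0).trans ?_
      rw [hT, ← mul_assoc (C * ((d : ℝ) + 1) * H)]
      have hlogL : 0 ≤ Real.log (d * L : ℕ) := Real.log_natCast_nonneg _
      gcongr
    rw [show ∑ m ∈ Ioc M0 M, expRoots h (d * m) =
        (∑ m ∈ Ioc 0 M, expRoots h (d * m)) - ∑ m ∈ Ioc 0 M0, expRoots h (d * m) from
      eq_sub_of_add_eq' (sum_Ioc_consecutive _ (Nat.zero_le _) hM0'), two_mul]
    exact (norm_sub_le _ _).trans (add_le_add (hfull M hM2') (hfull M0 (hM0'.trans hM2')))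
  have hterm : ∀ h ∈ (Icc (-(H : ℤ)) H).erase 0,
      ‖∑ m ∈ Ioc M0 M2, (coeff (8 * x) (|(h : ℝ)| * (8 * x)) (d * m) : ℂ) * expRoots h (d * m)‖ ≤
        2 * (C * (d + 1) * H * T) * (3 * (8 * x) / ((d : ℝ) * (M0 + 1))) := by
    intro h hh
    rw [mem_erase, mem_Icc] at hh
    have hhH : |(h : ℝ)| ≤ H := by
      rw [← Int.cast_abs]
      exact_mod_cast abs_le.2 hh.2
    exact (norm_sum_mul_le hlt.le (hpart h hh.1 hhH)).trans (mul_le_mul_of_nonneg_left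
      (variation_coeff_le hX0 (by positivity) hd0 hlt) (by positivity))
  rw [← Real.norm_eq_abs, ← Complex.norm_real, Complex.ofReal_sum,
    sum_congr rfl fun m hm => majorantErr_eq (H := H) hx Z
      (Nat.zero_lt_of_lt (mem_Ioc.1 hm).1) hd
      (le_trans (Nat.cast_le.2 (Nat.mul_le_mul_left d (mem_Ioc.1 hm).2)) hH), sum_comm]
  refine (norm_sum_le_of_le _ hterm).trans ?_
  rw [sum_const, nsmul_eq_mul, mul_assoc (192 * C * (x : ℝ) * (H : ℝ) ^ 2 / M0), ← hT]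
  have hcard : (#((Icc (-(H : ℤ)) H).erase 0) : ℝ) ≤ 2 * H := by
    rw [card_erase_of_mem (by simp), Int.card_Icc]
    exact_mod_cast (show ((H : ℤ) + 1 - -(H : ℤ)).toNat - 1 ≤ 2 * H by omega)
  refine (mul_le_mul_of_nonneg_right hcard (by positivity)).trans ?_
  rw [show 2 * (H : ℝ) * (2 * (C * (d + 1) * H * T) * (3 * (8 * x) / ((d : ℝ) * (M0 + 1)))) =
    96 * (C * x * (H : ℝ) ^ 2 * T) * (((d : ℝ) + 1) / ((d : ℝ) * (M0 + 1))) by ring,
    show 192 * C * (x : ℝ) * (H : ℝ) ^ 2 / M0 * T =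
    96 * (C * x * (H : ℝ) ^ 2 * T) * (2 / (M0 : ℝ)) by ring]
  refine mul_le_mul_of_nonneg_left ?_ (by positivity)
  rw [div_le_div_iff₀ (by positivity) (by linarith)]
  nlinarith

/-- **The sifted sum.** -/
theorem exists_sum_sifted_le : ∃ A B Z0 : ℝ, 0 < A ∧ 0 < B ∧
    ∀ (x M0 M2 H : ℕ) (Z : ℝ), 0 < x → Z0 ≤ Z → 1 ≤ M0 → M0 ≤ M2 →
      Z ^ (19 : ℝ) * M2 ≤ (H : ℝ) * (8 * x) →
      ∑ m ∈ Ioc M0 M2, (sifted x Z m : ℝ) ≤
        A * x * (Real.log ((M2 : ℝ) / M0) + 1) / Real.log Z +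
          B * x * (H : ℝ) ^ 2 / M0 * (Z ^ (19 : ℝ)) *
            ((Z ^ (19 : ℝ) * M2) ^ (3 / 4 : ℝ) * (1 + Real.log (Z ^ (19 : ℝ) * M2)) ^ 7) := by
  obtain ⟨C1, Z1, hC1, hmain⟩ := exists_mainTerm_le
  obtain ⟨C2, hC2, havg⟩ := exists_sum_primeFactor_le
  obtain ⟨C3, hC3, herr⟩ := exists_abs_sum_majorantErr_le
  refine ⟨16 * C1 * C2, 2 * C3, max Z1 2, by positivity, by positivity,
    fun x M0 M2 H Z hx hZ hM0 hM hH => ?_⟩
  rw [max_le_iff] at hZ
  obtain ⟨D, hD⟩ : ∃ D : ℝ, D = Z ^ (19 : ℝ) := ⟨_, rfl⟩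
  have hD1 : 1 ≤ D := hD ▸ Real.one_le_rpow (by linarith) (by norm_num)
  have hlZ : 0 < Real.log Z := Real.log_pos (by linarith)
  rw [← hD] at hH ⊢
  obtain ⟨P, hP⟩ : ∃ P, P = sieveLevel Z := ⟨_, rfl⟩
  refine (sum_le_sum fun m hm => sifted_le x Z (Nat.zero_lt_of_lt (mem_Ioc.1 hm).1)).trans ?_
  rw [← mul_sum, sum_congr rfl fun (m : ℕ) _ =>
    sum_congr rfl fun (d : ℕ) _ => show betaWeight (Z ^ (19 : ℝ)) 19 1 d * majorant x Z m d =
      8 * x * (betaWeight (Z ^ (19 : ℝ)) 19 1 d * ((rootCount (d * m) : ℝ) / (d * m : ℕ))) +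
        betaWeight (Z ^ (19 : ℝ)) 19 1 d * majorantErr x Z m d by rw [majorantErr]; ring]
  simp only [sum_add_distrib, ← mul_sum]
  rw [mul_add]
  refine add_le_add ?_ ?_
  · refine (mul_le_mul_of_nonneg_left (mul_le_mul_of_nonneg_left
      ((sum_le_sum fun m hm => hmain Z hZ.1 m (Nat.zero_lt_of_lt (mem_Ioc.1 hm).1)).trans
        ((mul_sum _ _ _).symm.le.trans (mul_le_mul_of_nonneg_left (havg M0 M2 hM0 hM)
          (by positivity)))) (by positivity)) zero_le_two).trans_eq ?_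
    ring
  · rw [sum_comm]
    simp only [← mul_sum]
    have hterm : ∀ d ∈ P.divisors,
        betaWeight (Z ^ (19 : ℝ)) 19 1 d * ∑ m ∈ Ioc M0 M2, majorantErr x Z m d ≤
          if (d : ℝ) < D then C3 * x * (H : ℝ) ^ 2 / M0 *
            ((D * M2) ^ (3 / 4 : ℝ) * (1 + Real.log (D * M2)) ^ 7) else 0 := by
      intro d hd
      have hdP : d ∣ sieveLevel Z := hP ▸ Nat.dvd_of_mem_divisors hd
      have hd0 : 0 < d := Nat.pos_of_dvd_of_pos hdP (sieveLevel_pos Z)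
      split_ifs with hdD
      · have hle : ((d * M2 : ℕ) : ℝ) ≤ D * M2 := by push_cast; gcongr
        refine (le_abs_self _).trans ?_
        rw [abs_mul]
        refine (mul_le_of_le_one_left (abs_nonneg _) (abs_betaWeight_le _ _ _ _)).trans ?_
        refine (herr x Z d M0 M2 H hx hdP hM0 hM (hle.trans hH)).trans ?_
        rw [mul_assoc]
        have := Real.log_natCast_nonneg (d * M2)
        gcongr
        exact Nat.cast_pos.2 (Nat.mul_pos hd0 (by omega))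
      · rw [hD, not_lt] at hdD
        rw [betaWeight_eq_zero (P := sieveLevel Z) (fun p hp => (mem_sievePrimes.1
          (primeFactors_sieveLevel Z ▸ hp)).1) (sieveLevel_pos Z).ne' (by linarith) (by norm_num)
          (by norm_num) (by norm_num) hdP hdD, zero_mul]
    rw [← hP]
    refine (mul_le_mul_of_nonneg_left (sum_le_sum hterm) zero_le_two).trans ?_
    rw [← sum_filter, sum_const, nsmul_eq_mul]
    have hcard : (#(P.divisors.filter fun d : ℕ => (d : ℝ) < D) : ℝ) ≤ D := by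
      refine le_trans (Nat.cast_le.2 ((card_le_card (t := Ioc 0 ⌊D⌋₊) fun d hd => ?_).trans
        (le_of_eq (by rw [Nat.card_Ioc, Nat.sub_zero])))) (Nat.floor_le (by linarith))
      rw [mem_filter, Nat.mem_divisors] at hd
      exact mem_Ioc.2 ⟨Nat.pos_of_dvd_of_pos hd.1.1 (Nat.pos_of_ne_zero hd.1.2),
        Nat.le_floor hd.2.le⟩
    have hDM : 1 ≤ D * M2 := one_le_mul_of_one_le_of_one_le hD1
      (Nat.one_le_cast.2 (hM0.trans hM))
    have := Real.log_nonneg hDM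
    refine (mul_le_mul_of_nonneg_left (mul_le_mul_of_nonneg_right hcard (by positivity))
      zero_le_two).trans_eq ?_
    ring

end FA.HooleyPrime
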