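import Fermat.Agent.HooleyPrime.Chebyshev
import Fermat.Agent.HooleyPrime.Sifted

/-!
# Hooley's theorem on the greatest prime factor of `n ^ 2 + 1`

The primes above `x` supply `x log x + O (x)` to `∑ log (n ^ 2 + 1)`, each `n ≤ x` has at most one
of them, and if all were at most `x ^ (1 + δ)` fewer than `x / 2` of the `n` would have one: for the
`n > x / 4` the cofactor `m = (n ^ 2 + 1) / p` lies in `(x ^ (1 - δ) / 32, x]` and the sifted sum
bounds their number.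
-/

set_option autoImplicit false

noncomputable section

namespace FA.HooleyPrime

open Finset Filter Topology
open scoped Real

theorem card_large_prime_divisors_le {x : ℕ} {n : ℕ} (hn : n ≤ x) :
    #(((Ioc x (x ^ 2 + 1)).filter Nat.Prime).filter fun p => p ∣ n ^ 2 + 1) ≤ 1 := by
  refine card_le_one.2 fun p hp q hq => by_contra fun hne => ?_
  simp only [mem_filter, mem_Ioc] at hp hq
  have hdvd : p * q ∣ n ^ 2 + 1 :=
    ((Nat.coprime_primes hp.1.2 hq.1.2).2 hne).mul_dvd_of_dvd_of_dvd hp.2 hq.2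
  have h1 := Nat.le_of_dvd (Nat.succ_pos _) hdvd
  have h2 : (x + 1) * (x + 1) ≤ p * q := Nat.mul_le_mul hp.1.1.1 hq.1.1.1
  have h3 : n ^ 2 ≤ x ^ 2 := Nat.pow_le_pow_left hn 2
  rcases Nat.eq_zero_or_pos x with rfl | hx
  · obtain ⟨⟨⟨-, hp1⟩, hpp⟩, -⟩ := hp
    have := hpp.two_le
    omega
  nlinarith

/-- The `n ≤ x` with a prime factor above `x` and none above `y`. -/
theorem count_le (x : ℕ) (Z : ℝ) (M0 : ℕ) (hZ : Z ≤ x) {y : ℝ}
    (hy : ∀ n : ℕ, (x : ℝ) / 4 < n → n ≤ x → ∀ p : ℕ, (p : ℝ) ≤ y →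
      (M0 : ℝ) * p < (n : ℝ) ^ 2)
    (hno : ∀ n ∈ Icc 1 x, ∀ p : ℕ, p.Prime → p ∣ n ^ 2 + 1 → (p : ℝ) ≤ y) :
    ∑ p ∈ (Ioc x (x ^ 2 + 1)).filter Nat.Prime, (hits x p : ℝ) ≤
      (x : ℝ) / 4 + ∑ m ∈ Ioc M0 x, (sifted x Z m : ℝ) := by
  classical
  obtain ⟨S, hS⟩ : ∃ S, S = (Icc 1 x).filter fun n =>
      ∃ p ∈ (Ioc x (x ^ 2 + 1)).filter Nat.Prime, p ∣ n ^ 2 + 1 := ⟨_, rfl⟩
  have h1 : ∑ p ∈ (Ioc x (x ^ 2 + 1)).filter Nat.Prime, hits x p ≤ #S := by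
    simp only [hits, card_filter]
    rw [sum_comm, hS, card_filter]
    refine sum_le_sum fun n hn => ?_
    rw [← card_filter]
    split_ifs with hex
    · exact card_large_prime_divisors_le (mem_Icc.1 hn).2
    · rw [filter_false_of_mem fun p hp hd => hex ⟨p, hp, hd⟩, card_empty]
  obtain ⟨T, hT⟩ : ∃ T, T = fun m => (Icc 1 x).filter fun n =>
      m ∣ n ^ 2 + 1 ∧ (sieveLevel Z).Coprime ((n ^ 2 + 1) / m) := ⟨_, rfl⟩
  have h2 : S ⊆ Ioc 0 (x / 4) ∪ (Ioc M0 x).biUnion T := by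
    intro n hn
    simp only [hS, mem_filter] at hn
    obtain ⟨hnI, p, hp, hdvd⟩ := hn
    have hnI' := mem_Icc.1 hnI
    rw [mem_Ioc] at hp
    rw [mem_union, mem_Ioc, mem_biUnion]
    by_cases hsmall : n ≤ x / 4
    · exact Or.inl ⟨hnI'.1, hsmall⟩
    refine Or.inr ?_
    have hbig : (x : ℝ) / 4 < n := by
      rw [div_lt_iff₀ (by norm_num)]
      exact_mod_cast (show x < n * 4 by omega)
    have hy' := hy n hbig hnI'.2 p (hno n hnI p hp.2 hdvd)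
    obtain ⟨m, hm⟩ := hdvd
    have hp0 : 0 < p := hp.2.pos
    refine ⟨m, mem_Ioc.2 ⟨?_, ?_⟩, ?_⟩
    · by_contra! hle
      have : ((n ^ 2 + 1 : ℕ) : ℝ) ≤ (M0 : ℝ) * p := by
        rw [hm, mul_comm, Nat.cast_mul]
        gcongr
      push_cast at this
      linarith
    · by_contra! hlt
      have h3 : n ^ 2 ≤ x ^ 2 := Nat.pow_le_pow_left hnI'.2 2
      have h4 : (x + 1) * (x + 1) ≤ p * m := Nat.mul_le_mul hp.1.1 hlt
      nlinarith
    · have hdiv : (n ^ 2 + 1) / m = p := by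
        rw [hm]
        refine Nat.mul_div_cancel _ (Nat.pos_of_ne_zero fun h => ?_)
        rw [h, mul_zero] at hm
        omega
      rw [hT, mem_filter, hdiv]
      refine ⟨hnI, hm ▸ dvd_mul_left m p, ?_⟩
      refine Nat.Coprime.symm ((Nat.Prime.coprime_iff_not_dvd hp.2).2 fun hd => ?_)
      have := Nat.mem_primeFactors.2 ⟨hp.2, hd, (sieveLevel_pos Z).ne'⟩
      rw [primeFactors_sieveLevel, mem_sievePrimes] at this
      have h5 : (x : ℝ) < p := Nat.cast_lt.2 hp.1.1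
      linarith [this.1]
  have h3 : #S ≤ x / 4 + ∑ m ∈ Ioc M0 x, #(T m) := by
    refine ((card_le_card h2).trans (card_union_le _ _)).trans (add_le_add ?_ card_biUnion_le)
    rw [Nat.card_Ioc, Nat.sub_zero]
  have h4 : ((∑ p ∈ (Ioc x (x ^ 2 + 1)).filter Nat.Prime, hits x p : ℕ) : ℝ) ≤
      ((x / 4 + ∑ m ∈ Ioc M0 x, #(T m) : ℕ) : ℝ) := Nat.cast_le.2 (h1.trans h3)
  push_cast at h4
  have h5 : ((x / 4 : ℕ) : ℝ) ≤ (x : ℝ) / 4 := Nat.cast_div_le
  rw [hT] at h4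
  simp only [sifted]
  linarith

/-- **Hooley: the greatest prime factor of `∏ (n ^ 2 + 1)`.** -/
theorem exists_hooley : ∃ δ : ℝ, 0 < δ ∧ ∀ᶠ x : ℕ in atTop,
    ∃ n ∈ Icc 1 x, ∃ p : ℕ, p.Prime ∧ p ∣ n ^ 2 + 1 ∧ (x : ℝ) ^ (1 + δ) < p := by
  obtain ⟨A, B, Z0, hA, hB, hsift⟩ := exists_sum_sifted_le
  obtain ⟨C, hC⟩ := exists_large_primes_ge
  obtain ⟨δ, hδ⟩ : ∃ δ : ℝ, δ = min (1 / 20) (1 / (8 * 760 * A)) := ⟨_, rfl⟩
  have hδ0 : 0 < δ := hδ ▸ lt_min (by norm_num) (by positivity)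
  have hδ1 : δ ≤ 1 / 20 := hδ ▸ min_le_left _ _
  have hδA : 760 * A * δ ≤ 1 / 8 := by
    have : δ ≤ 1 / (8 * 760 * A) := hδ ▸ min_le_right _ _
    rw [le_div_iff₀ (by positivity)] at this
    linarith
  refine ⟨δ, hδ0, ?_⟩
  have hlogtend : Tendsto (fun x : ℕ => Real.log x) atTop atTop :=
    Real.tendsto_log_atTop.comp tendsto_natCast_atTop_atTop
  have hp1 : Tendsto (fun x : ℕ => (x : ℝ) ^ (3 / 100 : ℝ)) atTop atTop :=
    (tendsto_rpow_atTop (by norm_num)).comp tendsto_natCast_atTop_atTop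
  have hp2 : Tendsto (fun x : ℕ => (x : ℝ) ^ (1 / 760 : ℝ)) atTop atTop :=
    (tendsto_rpow_atTop (by norm_num)).comp tendsto_natCast_atTop_atTop
  have hp3 : Tendsto (fun x : ℕ => (x : ℝ) ^ (19 / 20 : ℝ)) atTop atTop :=
    (tendsto_rpow_atTop (by norm_num)).comp tendsto_natCast_atTop_atTop
  filter_upwards [eventually_ge_atTop 2, hlogtend.eventually_gt_atTop (4 * C),
    hlogtend.eventually_ge_atTop (16 * 760 * A * (Real.log 64 + 1)),
    hp1.eventually_ge_atTop (16 * (256 * B * 201 ^ 7)), hp2.eventually_ge_atTop Z0,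
    hp3.eventually_ge_atTop 64] with x hx2 hxC hxA hxB hxZ hx64
  by_contra! hno
  obtain ⟨X, hXdef⟩ : ∃ X : ℝ, X = x := ⟨_, rfl⟩
  rw [← hXdef] at hxC hxA hxB hxZ hx64
  have hx1 : (1 : ℝ) < X := hXdef ▸ Nat.one_lt_cast.2 (by omega)
  have hx0 : (0 : ℝ) < X := by linarith
  have hlog : 0 < Real.log X := Real.log_pos hx1
  obtain ⟨Z, hZdef⟩ : ∃ Z : ℝ, Z = X ^ (1 / 760 : ℝ) := ⟨_, rfl⟩
  obtain ⟨D, hDdef⟩ : ∃ D : ℝ, D = X ^ (1 / 40 : ℝ) := ⟨_, rfl⟩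
  have hD : Z ^ (19 : ℝ) = D := by
    rw [hZdef, hDdef, ← Real.rpow_mul hx0.le]
    norm_num
  have hD1 : 1 ≤ D := hDdef ▸ Real.one_le_rpow hx1.le (by norm_num)
  have hlogZ : Real.log Z = Real.log X / 760 := by
    rw [hZdef, Real.log_rpow hx0]
    ring
  obtain ⟨Y, hYdef⟩ : ∃ Y : ℝ, Y = X ^ (1 - δ) / 32 := ⟨_, rfl⟩
  have hY2 : 2 ≤ Y := by
    rw [hYdef, le_div_iff₀ (by norm_num)]
    exact (le_trans (by norm_num) hx64).trans
      (Real.rpow_le_rpow_of_exponent_le hx1.le (by linarith))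
  obtain ⟨M0, hM0def⟩ : ∃ M0, M0 = ⌊Y⌋₊ := ⟨_, rfl⟩
  have hM0le : (M0 : ℝ) ≤ Y := hM0def ▸ Nat.floor_le (by linarith)
  have hM0ge : Y / 2 ≤ M0 := by
    have := Nat.lt_floor_add_one Y
    rw [← hM0def] at this
    linarith
  have hYX : Y ≤ X := by
    rw [hYdef, div_le_iff₀ (by norm_num)]
    refine (Real.rpow_le_rpow_of_exponent_le hx1.le (show 1 - δ ≤ 1 by linarith)).trans ?_
    rw [Real.rpow_one]
    linarith
  have hM01 : 1 ≤ M0 := hM0def ▸ Nat.le_floor (by push_cast; linarith)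
  have hM0x : M0 ≤ x := by
    rw [← @Nat.cast_le ℝ, ← hXdef]
    linarith
  obtain ⟨H, hHdef⟩ : ∃ H, H = ⌈D⌉₊ := ⟨_, rfl⟩
  have hHD : D ≤ (H : ℝ) := hHdef ▸ Nat.le_ceil D
  have hH2 : (H : ℝ) ≤ 2 * D := by
    have := Nat.ceil_lt_add_one (show 0 ≤ D by linarith)
    rw [← hHdef] at this
    linarith
  have hcount := count_le x Z M0 (y := X ^ (1 + δ)) ?_ ?_ (by
    intro n hn p hp hd
    rw [hXdef]
    exact hno n hn p hp hd)
  rotate_left
  · rw [hZdef, ← hXdef]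
    exact (Real.rpow_le_rpow_of_exponent_le hx1.le (by norm_num)).trans_eq (Real.rpow_one X)
  · intro n hn hnx p hp
    rw [← hXdef] at hn
    calc (M0 : ℝ) * p ≤ X ^ (1 - δ) / 32 * X ^ (1 + δ) :=
          mul_le_mul (hM0le.trans_eq hYdef) hp (Nat.cast_nonneg p) (by positivity)
      _ = X ^ 2 / 32 := by
          rw [div_mul_eq_mul_div, ← Real.rpow_add hx0, show 1 - δ + (1 + δ) = 2 by ring,
            Real.rpow_two]
      _ < X ^ 2 / 16 := by gcongr; norm_num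
      _ ≤ (n : ℝ) ^ 2 := by nlinarith
  have hs := hsift x M0 x H Z (by omega) (hZdef ▸ hxZ) hM01 hM0x (by
    rw [hD, ← hXdef]
    nlinarith)
  rw [hD, ← hXdef] at hs
  have hmain : A * X * (Real.log (X / M0) + 1) / Real.log Z ≤ 3 / 16 * X := by
    have hM0pos : (0 : ℝ) < M0 := Nat.cast_pos.2 hM01
    have hl : Real.log (X / M0) ≤ δ * Real.log X + Real.log 64 := by
      rw [← Real.log_rpow hx0, ← Real.log_mul (by positivity) (by norm_num)]
      refine Real.log_le_log (by positivity) ?_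
      rw [div_le_iff₀ hM0pos]
      calc X = X ^ δ * 64 * (X ^ (1 - δ) / 32 / 2) := by
            rw [div_div, show X ^ δ * 64 * (X ^ (1 - δ) / (32 * 2)) = X ^ δ * X ^ (1 - δ) by ring,
              ← Real.rpow_add hx0, add_sub_cancel, Real.rpow_one]
        _ ≤ X ^ δ * 64 * M0 := by rw [← hYdef]; gcongr
    rw [hlogZ, div_div_eq_mul_div, div_le_iff₀ hlog]
    calc A * X * (Real.log (X / M0) + 1) * 760
        ≤ A * X * (δ * Real.log X + Real.log 64 + 1) * 760 := by gcongr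
      _ = X * (760 * A * δ * Real.log X + 760 * A * (Real.log 64 + 1)) := by ring
      _ ≤ X * (1 / 8 * Real.log X + 1 / 16 * Real.log X) :=
          mul_le_mul_of_nonneg_left (add_le_add (mul_le_mul_of_nonneg_right hδA hlog.le)
            (by linarith)) hx0.le
      _ = _ := by ring
  have herr : B * X * (H : ℝ) ^ 2 / M0 * D *
      ((D * X) ^ (3 / 4 : ℝ) * (1 + Real.log (D * X)) ^ 7) ≤ 1 / 16 * X := by
    obtain ⟨L, hL⟩ : ∃ L : ℝ, L = X ^ (1 / 100 : ℝ) := ⟨_, rfl⟩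
    have hL1 : 1 ≤ L := hL ▸ Real.one_le_rpow hx1.le (by norm_num)
    have hlogL : 1 + Real.log (D * X) ≤ 201 * L := by
      have h1 : Real.log (D * X) ≤ 2 * Real.log X := by
        rw [Real.log_mul (by positivity) hx0.ne', hDdef, Real.log_rpow hx0]
        nlinarith
      have h2 := Real.log_le_rpow_div hx0.le (show (0 : ℝ) < 1 / 100 by norm_num)
      rw [← hL, le_div_iff₀ (by norm_num)] at h2
      linarith
    have hdiv : X * (H : ℝ) ^ 2 / M0 ≤ 256 * X ^ δ * D ^ 2 := by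
      rw [div_le_iff₀ (Nat.cast_pos.2 hM01)]
      calc X * (H : ℝ) ^ 2 ≤ X * (2 * D) ^ 2 := by gcongr
        _ = 256 * X ^ δ * D ^ 2 * (X ^ (1 - δ) / 32 / 2) := by
            have hX : X ^ δ * X ^ (1 - δ) = X := by
              rw [← Real.rpow_add hx0, add_sub_cancel, Real.rpow_one]
            linear_combination (-4 * D ^ 2) * hX
        _ ≤ 256 * X ^ δ * D ^ 2 * M0 := by rw [← hYdef]; gcongr
    have hpow : X ^ δ * D ^ 2 * D * ((D * X) ^ (3 / 4 : ℝ) * L ^ 7) ≤ X ^ (97 / 100 : ℝ) := by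
      rw [Real.mul_rpow (by positivity) hx0.le, hDdef, hL, ← Real.rpow_natCast (X ^ (1 / 40 : ℝ)) 2,
        ← Real.rpow_natCast (X ^ (1 / 100 : ℝ)) 7]
      simp only [← Real.rpow_mul hx0.le, ← Real.rpow_add hx0]
      refine Real.rpow_le_rpow_of_exponent_le hx1.le ?_
      push_cast
      linarith
    calc B * X * (H : ℝ) ^ 2 / M0 * D * ((D * X) ^ (3 / 4 : ℝ) * (1 + Real.log (D * X)) ^ 7)
        = B * (X * (H : ℝ) ^ 2 / M0) * D *
            ((D * X) ^ (3 / 4 : ℝ) * (1 + Real.log (D * X)) ^ 7) := by ring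
      _ ≤ B * (256 * X ^ δ * D ^ 2) * D * ((D * X) ^ (3 / 4 : ℝ) * (201 * L) ^ 7) := by
          have : 0 ≤ Real.log (D * X) := Real.log_nonneg (by nlinarith)
          gcongr
      _ = 256 * B * 201 ^ 7 *
            (X ^ δ * D ^ 2 * D * ((D * X) ^ (3 / 4 : ℝ) * L ^ 7)) := by ring
      _ ≤ X ^ (3 / 100 : ℝ) / 16 * X ^ (97 / 100 : ℝ) := by
          gcongr
          linarith
      _ = 1 / 16 * X := by
          rw [div_mul_eq_mul_div, ← Real.rpow_add hx0]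
          norm_num
          ring
  have hN := hC x hx2
  have hup : ∑ p ∈ (Ioc x (x ^ 2 + 1)).filter Nat.Prime, Real.log p * hits x p ≤
      (1 + δ) * Real.log X * ∑ p ∈ (Ioc x (x ^ 2 + 1)).filter Nat.Prime, (hits x p : ℝ) := by
    rw [mul_sum]
    refine sum_le_sum fun p hp => ?_
    obtain ⟨-, hpp⟩ := mem_filter.1 hp
    rcases Nat.eq_zero_or_pos (hits x p) with h0 | h0
    · rw [h0, Nat.cast_zero, mul_zero, mul_zero]
    obtain ⟨n, hn⟩ := card_pos.1 h0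
    obtain ⟨hn1, hn2⟩ := mem_filter.1 hn
    refine mul_le_mul_of_nonneg_right ?_ (Nat.cast_nonneg _)
    rw [← Real.log_rpow hx0]
    exact Real.log_le_log (Nat.cast_pos.2 hpp.pos) (hXdef ▸ hno n hn1 p hpp hn2)
  rw [← hXdef] at hN hcount
  have hhalf : ∑ p ∈ (Ioc x (x ^ 2 + 1)).filter Nat.Prime, (hits x p : ℝ) ≤ X / 2 := by linarith
  have hbound := hN.trans (hup.trans (mul_le_mul (mul_le_mul_of_nonneg_right
    (show 1 + δ ≤ 21 / 20 by linarith) hlog.le) hhalf (sum_nonneg fun _ _ => Nat.cast_nonneg _)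
    (by positivity)))
  nlinarith [mul_lt_mul_of_pos_left hxC hx0]

/-- Infinitely many `n ^ 2 + 1` have a prime factor above `n ^ (1 + δ)`. -/
theorem exists_hooley_infinite : ∃ δ : ℝ, 0 < δ ∧
    {n : ℕ | ∃ p : ℕ, p.Prime ∧ p ∣ n ^ 2 + 1 ∧ (n : ℝ) ^ (1 + δ) < p}.Infinite := by
  obtain ⟨δ, hδ, h⟩ := exists_hooley
  refine ⟨δ, hδ, fun hfin => ?_⟩
  obtain ⟨B, hB⟩ := hfin.bddAbove
  have htend : Tendsto (fun x : ℕ => (x : ℝ) ^ (1 + δ)) atTop atTop :=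
    (tendsto_rpow_atTop (by linarith)).comp tendsto_natCast_atTop_atTop
  obtain ⟨x, ⟨n, hn, p, hp, hd, hlt⟩, hx⟩ :=
    (h.and (htend.eventually_gt_atTop ((B ^ 2 + 1 : ℕ) : ℝ))).exists
  rw [mem_Icc] at hn
  have hle : (n : ℝ) ^ (1 + δ) ≤ (x : ℝ) ^ (1 + δ) :=
    Real.rpow_le_rpow (Nat.cast_nonneg n) (Nat.cast_le.2 hn.2) (by linarith)
  have hnB : n ≤ B := hB ⟨p, hp, hd, hle.trans_lt hlt⟩
  have hpB : (p : ℝ) ≤ ((B ^ 2 + 1 : ℕ) : ℝ) := Nat.cast_le.2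
    ((Nat.le_of_dvd (Nat.succ_pos _) hd).trans
      (Nat.add_le_add_right (Nat.pow_le_pow_left hnB 2) 1))
  linarith

end FA.HooleyPrime
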