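import Fermat.Agent.HooleyPrime.Uniform

/-!
# The periodic majorant

For `X = Q / J` the kernel `|∑_{j < J} e (n j / Q)| ^ 2 / J ^ 2` is at least `1 / 2` on
`[0, X / 8]`, and its sum over the `n mod Q` with `k ∣ n ^ 2 + 1` is, for every `k ∣ Q`, exactly
`X ρ k / k` plus `∑_{0 < |h|} X (k - |h| X)₊ / k ^ 2 · R_h k`, with `R_h` the exponential sum over
the roots.
-/

set_option autoImplicit false

noncomputable section

namespace FA.HooleyPrime

open Finset
open FA.ThreePrimes (eAdd eAdd_add eAdd_zero norm_eAdd eAdd_intCast eAdd_add_intCast eAdd_nat_mul)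
open scoped Real

/-- The kernel. -/
def kernel (Q J n : ℕ) : ℝ :=
  ‖∑ j ∈ range J, eAdd ((n : ℝ) * (j : ℝ) / (Q : ℝ))‖ ^ 2 / (J : ℝ) ^ 2

theorem kernel_nonneg (Q J n : ℕ) : 0 ≤ kernel Q J n := by
  rw [kernel]
  positivity

theorem half_le_kernel {Q J n : ℕ} (hJ : 0 < J) (hn : 8 * n * J ≤ Q) : 1 / 2 ≤ kernel Q J n := by
  have hJ0 : (0 : ℝ) < J := Nat.cast_pos.2 hJ
  have hterm : ∀ j ∈ range J, Real.sqrt 2 / 2 ≤ (eAdd ((n : ℝ) * (j : ℝ) / (Q : ℝ))).re := by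
    intro j hj
    rw [eAdd, Complex.exp_ofReal_mul_I_re, ← Real.cos_pi_div_four]
    refine Real.cos_le_cos_of_nonneg_of_le_pi (by positivity) (by linarith [Real.pi_pos]) ?_
    have h1 : (n : ℝ) * j / Q ≤ 1 / 8 := by
      rcases Nat.eq_zero_or_pos Q with rfl | hQ
      · simp
      rw [div_le_iff₀ (Nat.cast_pos.2 hQ)]
      have : ((8 * (n * j) : ℕ) : ℝ) ≤ Q := by
        refine Nat.cast_le.2 (le_trans ?_ hn)
        rw [mul_assoc]
        gcongr
        exact (mem_range.1 hj).le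
      push_cast at this
      linarith
    nlinarith [Real.pi_pos]
  have hre : (J : ℝ) * (Real.sqrt 2 / 2) ≤ ‖∑ j ∈ range J, eAdd ((n : ℝ) * (j : ℝ) / (Q : ℝ))‖ := by
    refine le_trans ?_ (Complex.re_le_norm _)
    rw [Complex.re_sum]
    refine le_trans (le_of_eq ?_) (sum_le_sum hterm)
    rw [sum_const, card_range, nsmul_eq_mul]
  rw [kernel, le_div_iff₀ (by positivity)]
  have h := pow_le_pow_left₀ (by positivity) hre 2
  rw [mul_pow, div_pow, Real.sq_sqrt zero_le_two] at h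
  linarith

/-- The coefficient of `R_h k`, `a = |h| X`. -/
def coeff (X a : ℝ) (k : ℕ) : ℝ := X * max ((k : ℝ) - a) 0 / (k : ℝ) ^ 2

theorem card_diff_eq (J : ℕ) (t : ℤ) :
    #((range J ×ˢ range J).filter fun x : ℕ × ℕ => (x.1 : ℤ) - x.2 = t) = J - t.natAbs := by
  refine Eq.trans ?_ (card_range (J - t.natAbs))
  refine card_nbij' (fun x => min x.1 x.2)
    (fun i => ((i : ℤ) + max t 0 |>.toNat, (i : ℤ) + max (-t) 0 |>.toNat)) ?_ ?_ ?_ ?_
  · intro x hx
    simp only [mem_coe, mem_filter, mem_product, mem_range] at hx ⊢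
    omega
  · intro i hi
    simp only [mem_coe, mem_filter, mem_product, mem_range] at hi ⊢
    omega
  · intro x hx
    simp only [mem_coe, mem_filter, mem_product, mem_range] at hx
    refine Prod.ext ?_ ?_ <;> simp only <;> omega
  · intro i hi
    simp only [mem_coe, mem_range] at hi
    simp only
    omega

theorem sum_eAdd_multiples {q : ℕ} (hq : 0 < q) (t : ℤ) :
    ∑ i ∈ range q, eAdd ((i : ℝ) * ((t : ℝ) / q)) = if (q : ℤ) ∣ t then (q : ℂ) else 0 := by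
  have hq0 : (q : ℝ) ≠ 0 := Nat.cast_ne_zero.2 hq.ne'
  split_ifs with h
  · obtain ⟨c, rfl⟩ := h
    rw [sum_congr rfl fun (i : ℕ) _ => show eAdd ((i : ℝ) * (((q * c : ℤ) : ℝ) / q)) = 1 by
      rw [← eAdd_intCast ((i : ℤ) * c)]
      congr 1
      push_cast
      field_simp, sum_const, card_range, nsmul_eq_mul, mul_one]
  · obtain ⟨z, hz⟩ : ∃ z, z = eAdd ((t : ℝ) / q) := ⟨_, rfl⟩
    have hzq : z ^ q = 1 := by
      rw [hz, ← eAdd_nat_mul, mul_div_cancel₀ _ hq0, eAdd_intCast]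
    have hz1 : z ≠ 1 := fun e => h <| by
      rw [hz, eAdd, Complex.exp_eq_one_iff] at e
      obtain ⟨c, hc⟩ := e
      have h2 : ((2 * π * ((t : ℝ) / q) : ℝ) : ℂ) = ((2 * π * c : ℝ) : ℂ) := by
        refine mul_right_cancel₀ Complex.I_ne_zero (hc.trans ?_)
        push_cast
        ring
      have h3 := mul_left_cancel₀ (by positivity) (Complex.ofReal_inj.1 h2)
      rw [div_eq_iff hq0] at h3
      exact ⟨c, by rw [mul_comm]; exact_mod_cast h3⟩
    rw [sum_congr rfl fun (i : ℕ) _ => show eAdd ((i : ℝ) * ((t : ℝ) / q)) = z ^ i by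
      rw [hz, eAdd_nat_mul], geom_sum_eq hz1, hzq, sub_self, zero_div]

/-- **The identity.** -/
theorem sum_kernel_eq {k q J : ℕ} (hk : 0 < k) (hq : 0 < q) :
    ((∑ n ∈ (range (k * q)).filter (fun n => k ∣ n ^ 2 + 1), kernel (k * q) J n : ℝ) : ℂ) =
      (q : ℂ) / (J : ℂ) ^ 2 *
        ∑ h ∈ Icc (-(J : ℤ)) J, ((J - h.natAbs * q : ℕ) : ℂ) * expRoots h k := by
  have hkR : (k : ℝ) ≠ 0 := Nat.cast_ne_zero.2 hk.ne'
  have hqR : (q : ℝ) ≠ 0 := Nat.cast_ne_zero.2 hq.ne'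
  have hqZ : (0 : ℤ) < q := Int.natCast_pos.2 hq
  rw [sum_nbij' (t := rootSet k ×ˢ range q)
    (g := fun x : ℕ × ℕ => kernel (k * q) J (x.1 + k * x.2))
    (fun n => (n % k, n / k)) (fun x => x.1 + k * x.2) ?_ ?_ (fun n _ => Nat.mod_add_div n k) ?_
    (fun n _ => by rw [Nat.mod_add_div])]
  rotate_left
  · intro n hn
    simp only [mem_filter, mem_range] at hn
    simp only [rootSet, mem_product, mem_filter, mem_range]
    exact ⟨⟨Nat.mod_lt _ hk, (QuadDivisor.dvd_mod_iff k n).2 hn.2⟩,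
      Nat.div_lt_of_lt_mul hn.1⟩
  · intro x hx
    simp only [rootSet, mem_product, mem_filter, mem_range] at hx
    simp only [mem_filter, mem_range]
    refine ⟨?_, ?_⟩
    · nlinarith [hx.1.1, hx.2]
    · rw [← QuadDivisor.dvd_mod_iff, Nat.add_mul_mod_self_left, Nat.mod_eq_of_lt hx.1.1]
      exact hx.1.2
  · intro x hx
    simp only [rootSet, mem_product, mem_filter, mem_range] at hx
    refine Prod.ext ?_ ?_
    · simp only [Nat.add_mul_mod_self_left, Nat.mod_eq_of_lt hx.1.1]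
    · simp only [Nat.add_mul_div_left _ _ hk, Nat.div_eq_of_lt hx.1.1, zero_add]
  have hexp : ∀ v i : ℕ, ((kernel (k * q) J (v + k * i) : ℝ) : ℂ) =
      (∑ x ∈ range J ×ˢ range J, eAdd ((v : ℝ) * ((x.1 : ℤ) - x.2 : ℤ) / ((k : ℝ) * q)) *
        eAdd ((i : ℝ) * ((((x.1 : ℤ) - x.2 : ℤ) : ℝ) / q))) / (J : ℂ) ^ 2 := by
    intro v i
    rw [kernel]
    push_cast
    rw [← Complex.mul_conj', map_sum, sum_mul_sum, sum_product]
    refine congrArg (· / (J : ℂ) ^ 2) (sum_congr rfl fun a _ => sum_congr rfl fun b _ => ?_)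
    rw [← eAdd_add, show (starRingEnd ℂ) (eAdd (((v : ℝ) + k * i) * b / ((k : ℝ) * q))) =
      eAdd (-(((v : ℝ) + k * i) * b / ((k : ℝ) * q))) by
        rw [eAdd, eAdd, ← Complex.exp_conj, map_mul, Complex.conj_ofReal, Complex.conj_I]
        push_cast
        ring_nf, ← eAdd_add]
    congr 1
    field_simp
    ring
  rw [Complex.ofReal_sum, sum_product, sum_congr rfl fun v _ => sum_congr rfl fun i _ => hexp v i]
  simp only [← sum_div]
  rw [sum_congr rfl fun v _ => sum_comm]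
  simp only [← mul_sum, sum_eAdd_multiples hq]
  rw [sum_comm, div_mul_eq_mul_div]
  refine congrArg (· / (J : ℂ) ^ 2) ?_
  simp only [mul_ite, mul_zero]
  rw [sum_congr rfl fun x _ => show (∑ v ∈ rootSet k,
      if (q : ℤ) ∣ (x.1 : ℤ) - x.2 then
        eAdd ((v : ℝ) * (((x.1 : ℤ) - x.2 : ℤ) : ℝ) / ((k : ℝ) * q)) * (q : ℂ) else 0) =
      if (q : ℤ) ∣ (x.1 : ℤ) - x.2 then
        (q : ℂ) * expRoots (((x.1 : ℤ) - x.2) / q) k else 0 by
    rw [← ite_sum_zero]
    by_cases hd : (q : ℤ) ∣ (x.1 : ℤ) - x.2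
    · rw [if_pos hd, if_pos hd, ← sum_mul, mul_comm, expRoots]
      obtain ⟨c, hc⟩ := hd
      refine congrArg ((q : ℂ) * ·) (sum_congr rfl fun v _ => congrArg eAdd ?_)
      rw [hc, Int.mul_ediv_cancel_left _ hqZ.ne']
      push_cast
      field_simp
    · rw [if_neg hd, if_neg hd], ← sum_filter]
  rw [mul_sum, ← sum_fiberwise_of_maps_to (g := fun x : ℕ × ℕ => ((x.1 : ℤ) - x.2) / q)
    (t := Icc (-(J : ℤ)) J) (fun x hx => ?_)]
  · refine sum_congr rfl fun h _ => ?_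
    rw [sum_congr rfl (g := fun _ => (q : ℂ) * expRoots h k)
        fun x hx => by rw [(mem_filter.1 hx).2],
      sum_const, nsmul_eq_mul, filter_filter, show ((range J ×ˢ range J).filter fun x : ℕ × ℕ =>
        (q : ℤ) ∣ (x.1 : ℤ) - x.2 ∧ ((x.1 : ℤ) - x.2) / q = h) =
        (range J ×ˢ range J).filter (fun x : ℕ × ℕ => (x.1 : ℤ) - x.2 = h * q) from
      filter_congr fun x _ => by
        constructor
        · rintro ⟨hd, rfl⟩
          rw [Int.ediv_mul_cancel hd]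
        · intro e
          rw [e, Int.mul_ediv_cancel _ hqZ.ne']
          exact ⟨dvd_mul_left _ _, rfl⟩, card_diff_eq, Int.natAbs_mul, Int.natAbs_natCast]
    ring
  · simp only [mem_filter, mem_product, mem_range] at hx
    obtain ⟨c, hc⟩ := hx.2
    rw [hc, Int.mul_ediv_cancel_left _ hqZ.ne', mem_Icc]
    have h1 : |c| ≤ |(q : ℤ) * c| := by
      rw [abs_mul, Nat.abs_cast]
      exact le_mul_of_one_le_left (abs_nonneg c) hqZ
    rw [← hc] at h1
    have h2 := abs_le.1 (h1.trans (show |(x.1 : ℤ) - x.2| ≤ J by rw [abs_le]; omega))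
    exact h2

/-- **The majorant sum at `k`.** -/
theorem sum_kernel_sub_eq {k q J H : ℕ} (hk : 0 < k) (hq : 0 < q) (hJ : 0 < J) {X : ℝ}
    (hX : X = (k : ℝ) * q / J) (hH : (k : ℝ) ≤ (H : ℝ) * X) :
    ((∑ n ∈ (range (k * q)).filter (fun n => k ∣ n ^ 2 + 1), kernel (k * q) J n : ℝ) : ℂ) -
        ((X * #(rootSet k) / k : ℝ) : ℂ) =
      ∑ h ∈ (Icc (-(H : ℤ)) H).erase 0, (coeff X (|(h : ℝ)| * X) k : ℂ) * expRoots h k := by
  have hk0 : (0 : ℝ) < k := Nat.cast_pos.2 hk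
  have hJ0 : (0 : ℝ) < J := Nat.cast_pos.2 hJ
  have hq0 : (0 : ℝ) < q := Nat.cast_pos.2 hq
  have hcoeff : ∀ h : ℤ,
      (q : ℝ) / (J : ℝ) ^ 2 * ((J - h.natAbs * q : ℕ) : ℝ) = coeff X (|(h : ℝ)| * X) k := by
    intro h
    rw [coeff, hX, show |(h : ℝ)| = (h.natAbs : ℝ) by rw [Nat.cast_natAbs, Int.cast_abs]]
    rcases le_total (h.natAbs * q) J with hle | hle
    · have hr : (h.natAbs : ℝ) * q ≤ J := by exact_mod_cast hle
      rw [Nat.cast_sub hle, max_eq_left]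
      · push_cast
        field_simp
      · rw [sub_nonneg, mul_div_assoc', div_le_iff₀ hJ0]
        nlinarith
    · have hr : (J : ℝ) ≤ (h.natAbs : ℝ) * q := by exact_mod_cast hle
      rw [Nat.sub_eq_zero_of_le hle, Nat.cast_zero, mul_zero, max_eq_right, mul_zero, zero_div]
      rw [sub_nonpos, mul_div_assoc', le_div_iff₀ hJ0]
      nlinarith
  have hzero : ∀ h : ℤ, (k : ℝ) ≤ |(h : ℝ)| * X →
      (coeff X (|(h : ℝ)| * X) k : ℂ) * expRoots h k = 0 := fun h hh => by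
    rw [coeff, max_eq_right (by linarith), mul_zero, zero_div, Complex.ofReal_zero, zero_mul]
  have hX0 : 0 < X := by rw [hX]; positivity
  rw [sum_kernel_eq hk hq, mul_sum,
    ← add_sum_erase _ _ (show (0 : ℤ) ∈ Icc (-(J : ℤ)) J by simp)]
  have h0 : (q : ℂ) / (J : ℂ) ^ 2 * (((J - (0 : ℤ).natAbs * q : ℕ) : ℂ) * expRoots 0 k) =
      ((X * #(rootSet k) / k : ℝ) : ℂ) := by
    simp only [Int.natAbs_zero, zero_mul, Nat.sub_zero, expRoots, Int.cast_zero, zero_div,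
      eAdd_zero, sum_const, nsmul_eq_mul, mul_one, hX]
    have hkC : (k : ℂ) ≠ 0 := Nat.cast_ne_zero.2 hk.ne'
    have hJC : (J : ℂ) ≠ 0 := Nat.cast_ne_zero.2 hJ.ne'
    push_cast
    field_simp
  rw [h0, add_sub_cancel_left,
    sum_congr rfl fun h _ => show (q : ℂ) / (J : ℂ) ^ 2 *
        (((J - h.natAbs * q : ℕ) : ℂ) * expRoots h k) =
      (coeff X (|(h : ℝ)| * X) k : ℂ) * expRoots h k by
        rw [← hcoeff h]
        push_cast
        ring]
  have hsub : ∀ (A : ℕ), (k : ℝ) ≤ (A : ℝ) * X →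
      ∑ h ∈ (Icc (-(A : ℤ)) A).erase 0, (coeff X (|(h : ℝ)| * X) k : ℂ) * expRoots h k =
      ∑ h ∈ (Icc (-((max J H : ℕ) : ℤ)) (max J H : ℕ)).erase 0,
        if h.natAbs ≤ A then (coeff X (|(h : ℝ)| * X) k : ℂ) * expRoots h k else
          (coeff X (|(h : ℝ)| * X) k : ℂ) * expRoots h k := by
    intro A hA
    simp only [ite_self]
    refine sum_congr_of_eq_on_inter (fun h hh hn => ?_) (fun h hh hn => ?_) fun h _ _ => rfl
    all_goals
      simp only [mem_erase, mem_Icc, not_and] at hh hn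
      refine hzero h ?_
      have hn' := hn hh.1
      rw [show |(h : ℝ)| = (h.natAbs : ℝ) by rw [Nat.cast_natAbs, Int.cast_abs]]
    · refine le_trans ?_ (mul_le_mul_of_nonneg_right
        (Nat.cast_le.2 (show max J H ≤ h.natAbs by omega)) hX0.le)
      exact hH.trans (mul_le_mul_of_nonneg_right (Nat.cast_le.2 (le_max_right _ _)) hX0.le)
    · exact hA.trans (mul_le_mul_of_nonneg_right
        (Nat.cast_le.2 (show A ≤ h.natAbs by omega)) hX0.le)
  have hJX : (k : ℝ) ≤ (J : ℝ) * X := by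
    rw [hX, mul_div_cancel₀ _ hJ0.ne']
    exact le_mul_of_one_le_right hk0.le (Nat.one_le_cast.2 hq)
  rw [hsub J hJX, hsub H hH]
  simp only [ite_self]

/-! ### Partial summation -/

theorem norm_sum_mul_le {g : ℕ → ℝ} {c : ℕ → ℂ} {M0 M : ℕ} (hM : M0 ≤ M) {B : ℝ}
    (hB : ∀ m, M0 ≤ m → m ≤ M → ‖∑ i ∈ Ioc M0 m, c i‖ ≤ B) :
    ‖∑ i ∈ Ioc M0 M, (g i : ℂ) * c i‖ ≤
      B * (|g M| + ∑ i ∈ Ico (M0 + 1) M, |g (i + 1) - g i|) := by
  have key : ∀ m, M0 ≤ m → m ≤ M →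
      ‖(∑ i ∈ Ioc M0 m, (g i : ℂ) * c i) - (g m : ℂ) * ∑ i ∈ Ioc M0 m, c i‖ ≤
        B * ∑ i ∈ Ico (M0 + 1) m, |g (i + 1) - g i| := by
    intro m hm
    induction m, hm using Nat.le_induction with
    | base => intro _; simp
    | succ m hm ih =>
      intro hm1
      have h := ih (by omega)
      rw [sum_Ioc_succ_top hm, sum_Ioc_succ_top hm]
      rcases eq_or_lt_of_le hm with rfl | hlt
      · simp [mul_comm]
      rw [sum_Ico_succ_top (by omega), mul_add B]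
      have e : (∑ i ∈ Ioc M0 m, (g i : ℂ) * c i) + (g (m + 1) : ℂ) * c (m + 1) -
          (g (m + 1) : ℂ) * ((∑ i ∈ Ioc M0 m, c i) + c (m + 1)) =
          ((∑ i ∈ Ioc M0 m, (g i : ℂ) * c i) - (g m : ℂ) * ∑ i ∈ Ioc M0 m, c i) -
          ((g (m + 1) - g m : ℝ) : ℂ) * ∑ i ∈ Ioc M0 m, c i := by
        push_cast
        ring
      rw [e]
      refine (norm_sub_le _ _).trans (add_le_add h ?_)
      rw [norm_mul, Complex.norm_real, Real.norm_eq_abs, mul_comm B]
      exact mul_le_mul_of_nonneg_left (hB m hm (by omega)) (abs_nonneg _)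
  have h1 := key M hM le_rfl
  refine (norm_le_norm_sub_add _ ((g M : ℂ) * ∑ i ∈ Ioc M0 M, c i)).trans ?_
  rw [norm_mul, Complex.norm_real, Real.norm_eq_abs, mul_add, add_comm]
  exact add_le_add ((mul_le_mul_of_nonneg_left (hB M hM le_rfl) (abs_nonneg _)).trans_eq
    (mul_comm _ _)) h1

/-- The coefficient has variation at most `3 X / (d (M0 + 1))`. -/
theorem variation_coeff_le {X a : ℝ} (hX : 0 ≤ X) (ha : 0 ≤ a) {d M0 M : ℕ} (hd : 0 < d)
    (hM : M0 < M) :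
    |coeff X a (d * M)| + ∑ i ∈ Ico (M0 + 1) M, |coeff X a (d * (i + 1)) - coeff X a (d * i)| ≤
      3 * X / ((d : ℝ) * (M0 + 1)) := by
  obtain ⟨u, hu⟩ : ∃ u : ℕ → ℝ, u = fun i : ℕ => max (1 - a / ((d : ℝ) * i)) 0 := ⟨_, rfl⟩
  obtain ⟨v, hv⟩ : ∃ v : ℕ → ℝ, v = fun i : ℕ => X / ((d : ℝ) * i) := ⟨_, rfl⟩
  have hd0 : (0 : ℝ) < d := Nat.cast_pos.2 hd
  have hpos : ∀ i : ℕ, M0 < i → (0 : ℝ) < (d : ℝ) * i := fun i hi =>
    mul_pos hd0 (Nat.cast_pos.2 (by omega))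
  have he : ∀ i : ℕ, M0 < i → coeff X a (d * i) = u i * v i := fun i hi => by
    have := hpos i hi
    rw [coeff, hu, hv]
    simp only
    push_cast
    rw [show (1 : ℝ) - a / ((d : ℝ) * i) = ((d : ℝ) * i - a) / ((d : ℝ) * i) by
        rw [sub_div, div_self this.ne'],
      show (0 : ℝ) = 0 / ((d : ℝ) * i) by simp, max_div_div_right this.le, zero_div]
    field_simp
  have humem : ∀ i : ℕ, M0 < i → 0 ≤ u i ∧ u i ≤ 1 := fun i hi => by
    rw [hu]
    exact ⟨le_max_right _ _, max_le (sub_le_self _ (by positivity)) zero_le_one⟩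
  have hvmem : ∀ i : ℕ, M0 < i → 0 ≤ v i ∧ v i ≤ v (M0 + 1) := fun i hi => by
    rw [hv]
    refine ⟨by positivity, div_le_div_of_nonneg_left hX (hpos _ (by omega)) ?_⟩
    gcongr
    exact hi
  have hmono : ∀ i : ℕ, M0 < i → u i ≤ u (i + 1) ∧ v (i + 1) ≤ v i := fun i hi => by
    have := hpos i hi
    have hle : (d : ℝ) * i ≤ (d : ℝ) * ((i + 1 : ℕ) : ℝ) := by gcongr; omega
    rw [hu, hv]
    exact ⟨max_le_max (sub_le_sub_left (div_le_div_of_nonneg_left ha this hle) _) le_rfl,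
      div_le_div_of_nonneg_left hX this hle⟩
  refine (add_le_add (show |coeff X a (d * M)| ≤ v (M0 + 1) from ?_)
    (sum_le_sum (g := fun i => (v i - v (i + 1)) + v (M0 + 1) * (u (i + 1) - u i))
      fun i hi => ?_)).trans ?_
  · rw [he M hM, abs_of_nonneg (mul_nonneg (humem M hM).1 (hvmem M hM).1)]
    exact (mul_le_of_le_one_left (hvmem M hM).1 (humem M hM).2).trans (hvmem M hM).2
  · rw [mem_Ico] at hi
    have h1 := humem (i + 1) (by omega)
    have h2 := hvmem i (by omega)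
    have h3 := hmono i (by omega)
    rw [he i (by omega), he (i + 1) (by omega), abs_le]
    constructor <;> nlinarith
  · have hsum : ∀ f : ℕ → ℝ, ∑ i ∈ Ico (M0 + 1) M, (f (i + 1) - f i) = f M - f (M0 + 1) :=
      fun f => sum_Ico_sub f hM
    rw [sum_add_distrib, ← mul_sum, hsum u,
      sum_congr rfl fun i _ => (neg_sub (v (i + 1)) (v i)).symm,
      sum_neg_distrib, hsum v]
    have h1 := humem M hM
    have h2 := humem (M0 + 1) (by omega)
    have h3 := (hvmem (M0 + 1) (by omega)).1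
    have h4 := (hvmem M hM).1
    have h5 : v (M0 + 1) * 3 = 3 * X / ((d : ℝ) * (M0 + 1)) := by
      rw [hv]
      push_cast
      ring
    nlinarith

end FA.HooleyPrime
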